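/-
T16 / L1 (part 1): the `q`-expansions of `E₄`, `E₆`, `Δ` are (images of) power series with
integer coefficients; `Δ = q + ...`.  Mathlib only.
-/
import Mathlib

set_option autoImplicit false

namespace Fermat.Agent.S16.L1h67

open PowerSeries ArithmeticFunction
open scoped ArithmeticFunction.sigma

/-- `∑_{n ≥ 1} σ_k(n) qⁿ` as an integral power series -/
noncomputable def sigmaSeries (k : ℕ) : PowerSeries ℤ :=
  PowerSeries.mk fun n => if n = 0 then 0 else (σ k n : ℤ)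

/-- the integral `q`-expansion of `E₄` -/
noncomputable def e4Z : PowerSeries ℤ := 1 + 240 * sigmaSeries 3

/-- the integral `q`-expansion of `E₆` -/
noncomputable def e6Z : PowerSeries ℤ := 1 - 504 * sigmaSeries 5

theorem twelve_dvd_aux (d : ℤ) : (12 : ℤ) ∣ d ^ 3 * (5 + 7 * d ^ 2) := by
  have h : ∀ x : ZMod 12, x ^ 3 * (5 + 7 * x ^ 2) = 0 := by decide
  have := h (d : ZMod 12)
  have h2 : ((d ^ 3 * (5 + 7 * d ^ 2) : ℤ) : ZMod 12) = 0 := by
    push_cast
    exact this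
  exact_mod_cast (ZMod.intCast_zmod_eq_zero_iff_dvd _ 12).mp h2

theorem twelve_dvd_sigma (n : ℕ) : (12 : ℤ) ∣ 5 * (σ 3 n : ℤ) + 7 * (σ 5 n : ℤ) := by
  rw [sigma_apply, sigma_apply]
  push_cast
  rw [Finset.mul_sum, Finset.mul_sum, ← Finset.sum_add_distrib]
  apply Finset.dvd_sum
  intro d _
  have := twelve_dvd_aux (d : ℤ)
  have h : (5 : ℤ) * (d : ℤ) ^ 3 + 7 * (d : ℤ) ^ 5 = (d : ℤ) ^ 3 * (5 + 7 * (d : ℤ) ^ 2) := by ring
  rw [h]
  exact this

/-- `(5 A + 7 B) / 12` with `A = ∑ σ₃(n) qⁿ`, `B = ∑ σ₅(n) qⁿ` -/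
noncomputable def cSeries : PowerSeries ℤ :=
  PowerSeries.mk fun n => if n = 0 then 0 else (5 * (σ 3 n : ℤ) + 7 * (σ 5 n : ℤ)) / 12

theorem twelve_mul_cSeries : (12 : PowerSeries ℤ) * cSeries = 5 * sigmaSeries 3 + 7 * sigmaSeries 5 := by
  ext n
  have h12 : (12 : PowerSeries ℤ) = C (12 : ℤ) := by simp
  have h5 : (5 : PowerSeries ℤ) = C (5 : ℤ) := by simp
  have h7 : (7 : PowerSeries ℤ) = C (7 : ℤ) := by simp
  rw [h12, h5, h7, map_add, coeff_C_mul, coeff_C_mul, coeff_C_mul, cSeries, sigmaSeries, sigmaSeries,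
    coeff_mk, coeff_mk, coeff_mk]
  split_ifs with h
  · simp
  · exact Int.mul_ediv_cancel' (twelve_dvd_sigma n)

/-- the integral `q`-expansion of `Δ` -/
noncomputable def deltaZ : PowerSeries ℤ :=
  cSeries + 100 * sigmaSeries 3 ^ 2 + 8000 * sigmaSeries 3 ^ 3 - 147 * sigmaSeries 5 ^ 2

theorem e4Z_cube_sub_e6Z_sq : e4Z ^ 3 - e6Z ^ 2 = 1728 * deltaZ := by
  rw [e4Z, e6Z, deltaZ]
  linear_combination (144 : PowerSeries ℤ) * twelve_mul_cSeries.symm

theorem constantCoeff_sigmaSeries (k : ℕ) : constantCoeff (sigmaSeries k) = 0 := by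
  rw [← coeff_zero_eq_constantCoeff_apply, sigmaSeries, coeff_mk]
  simp

theorem coeff_one_sigmaSeries (k : ℕ) : coeff 1 (sigmaSeries k) = 1 := by
  rw [sigmaSeries, coeff_mk]
  simp

theorem constantCoeff_e4Z : constantCoeff e4Z = 1 := by
  rw [e4Z, map_add, map_mul, constantCoeff_sigmaSeries]
  simp

theorem constantCoeff_e6Z : constantCoeff e6Z = 1 := by
  rw [e6Z, map_sub, map_mul, constantCoeff_sigmaSeries]
  simp

theorem constantCoeff_cSeries : constantCoeff cSeries = 0 := by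
  rw [← coeff_zero_eq_constantCoeff_apply, cSeries, coeff_mk]
  simp

theorem constantCoeff_deltaZ : constantCoeff deltaZ = 0 := by
  rw [deltaZ, map_sub, map_add, map_add, map_mul, map_mul, map_mul, map_pow, map_pow, map_pow,
    constantCoeff_sigmaSeries, constantCoeff_sigmaSeries, constantCoeff_cSeries]
  simp

end Fermat.Agent.S16.L1h67
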