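/-
T16 / L1 (part 2): level-one integrality.  A modular form of level one whose `q`-expansion has
coefficients in a subring `R ⊆ ℂ` is an `R`-linear combination of the isobaric monomials
`E₄^a E₆^b Δ^c`, `4a + 6b + 12c = k`.
-/
import Fermat.Agent.S16.LevelOneSeries

set_option autoImplicit false

namespace Fermat.Agent.S16.L1h67

open UpperHalfPlane ModularForm ModularFormClass EisensteinSeries PowerSeries
open scoped MatrixGroups ModularForm Manifold ArithmeticFunction.sigma

local notation "Δ" => ModularForm.discriminant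

/-! ### coefficients of the integral series -/

theorem coeff_sigmaSeries (k n : ℕ) :
    coeff n (sigmaSeries k) = if n = 0 then 0 else (σ k n : ℤ) := by
  rw [sigmaSeries, coeff_mk]

theorem coeff_e4Z (n : ℕ) : coeff n e4Z = if n = 0 then 1 else 240 * (σ 3 n : ℤ) := by
  have h : (240 : PowerSeries ℤ) = C (240 : ℤ) := by simp
  rw [e4Z, map_add, h, coeff_C_mul, coeff_sigmaSeries, coeff_one]
  split_ifs <;> simp

theorem coeff_e6Z (n : ℕ) : coeff n e6Z = if n = 0 then 1 else -504 * (σ 5 n : ℤ) := by
  have h : (504 : PowerSeries ℤ) = C (504 : ℤ) := by simp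
  rw [e6Z, map_sub, h, coeff_C_mul, coeff_sigmaSeries, coeff_one]
  split_ifs <;> simp

/-! ### the analytic `q`-expansions -/

theorem qExpansion_E4 : qExpansion 1 E₄ = e4Z.map (Int.castRingHom ℂ) := by
  ext n
  rw [E_qExpansion_coeff _ ⟨2, rfl⟩, coeff_map, coeff_e4Z]
  split_ifs with h
  · simp
  · norm_num [show bernoulli 4 = -1 / 30 by decide +kernel]

theorem qExpansion_E6 : qExpansion 1 E₆ = e6Z.map (Int.castRingHom ℂ) := by
  ext n
  rw [E_qExpansion_coeff _ ⟨3, rfl⟩, coeff_map, coeff_e6Z]
  split_ifs with h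
  · simp
  · norm_num [show bernoulli 6 = 1 / 42 by decide +kernel]

/-- `1728 Δ = E₄³ - E₆²` on `q`-expansions. -/
theorem smul_qExpansion_discriminant :
    (1728 : ℂ) • qExpansion 1 CuspForm.discriminant =
      qExpansion 1 E₄ ^ 3 - qExpansion 1 E₆ ^ 2 := by
  have hfun : (((1728 : ℂ) • CuspForm.discriminant : CuspForm 𝒮ℒ 12) : ℍ → ℂ) =
      ((ModularForm.mcast (by decide) (E₄.pow 3) - ModularForm.mcast (by decide) (E₆.pow 2) :
        ModularForm 𝒮ℒ 12) : ℍ → ℂ) := by
    funext z
    have h := discriminant_eq_E₄_cube_sub_E₆_sq z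
    simp only [FunLike.coe_smul, Pi.smul_apply, smul_eq_mul, FunLike.coe_sub,
      ModularForm.coe_mcast, ModularForm.coe_pow, Pi.sub_apply, Pi.pow_apply,
      CuspForm.coe_discriminant]
    rw [h]
    ring
  have h1 : qExpansion 1 (((1728 : ℂ) • CuspForm.discriminant : CuspForm 𝒮ℒ 12) : ℍ → ℂ) =
      (1728 : ℂ) • qExpansion 1 CuspForm.discriminant := by
    rw [FunLike.coe_smul]
    exact ModularForm.qExpansion_smul one_pos one_mem_strictPeriods_SL _ CuspForm.discriminant
  rw [← h1, hfun, FunLike.coe_sub,
    ModularForm.qExpansion_sub one_pos one_mem_strictPeriods_SL, ModularForm.qExpansion_mcast,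
    ModularForm.qExpansion_mcast, ModularForm.qExpansion_pow one_pos one_mem_strictPeriods_SL,
    ModularForm.qExpansion_pow one_pos one_mem_strictPeriods_SL]

theorem qExpansion_discriminant : qExpansion 1 Δ = deltaZ.map (Int.castRingHom ℂ) := by
  have h := smul_qExpansion_discriminant
  rw [qExpansion_E4, qExpansion_E6, ← map_pow, ← map_pow, ← map_sub, e4Z_cube_sub_e6Z_sq,
    map_mul] at h
  have h1728 : (PowerSeries.map (Int.castRingHom ℂ)) (1728 : PowerSeries ℤ) =
      C (1728 : ℂ) := by
    have : (1728 : PowerSeries ℤ) = C (1728 : ℤ) := by simp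
    rw [this, map_C]
    simp
  rw [h1728, ← smul_eq_C_mul] at h
  exact smul_right_injective _ (by norm_num : (1728 : ℂ) ≠ 0) h

/-! ### division by a series `q + ...` preserves coefficient rings -/

/-- If `D = q + ...` has coefficients in `R` and `D * H` has coefficients in `R`, so has `H`. -/
theorem coeff_mem_of_mul (R : Subring ℂ) (D H : PowerSeries ℂ) (hD0 : coeff 0 D = 0)
    (hD1 : coeff 1 D = 1) (hD : ∀ n, coeff n D ∈ R) (hG : ∀ n, coeff n (D * H) ∈ R) :
    ∀ n, coeff n H ∈ R := by
  intro n
  induction n using Nat.strong_induction_on with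
  | _ n ih =>
    have hmul := PowerSeries.coeff_mul (n + 1) D H
    have hmem : ((1, n) : ℕ × ℕ) ∈ Finset.HasAntidiagonal.antidiagonal (n + 1) := by
      rw [Finset.HasAntidiagonal.mem_antidiagonal]; omega
    rw [← Finset.add_sum_erase _ _ hmem, hD1, one_mul] at hmul
    have hrest : ∑ x ∈ (Finset.HasAntidiagonal.antidiagonal (n + 1)).erase (1, n), coeff x.1 D * coeff x.2 H ∈ R := by
      apply Subring.sum_mem
      rintro ⟨i, j⟩ hij
      rw [Finset.mem_erase, Finset.HasAntidiagonal.mem_antidiagonal] at hij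
      obtain ⟨hne, hsum⟩ := hij
      simp only at hsum ⊢
      rcases Nat.eq_zero_or_pos i with rfl | hi
      · rw [hD0, zero_mul]; exact R.zero_mem
      · have hj : j < n := by
          rcases Nat.lt_or_ge j n with h | h
          · exact h
          · exfalso
            apply hne
            have : i = 1 := by omega
            have : j = n := by omega
            simp [*]
        exact R.mul_mem (hD i) (ih j hj)
    have : coeff n H = coeff (n + 1) (D * H) -
        ∑ x ∈ (Finset.HasAntidiagonal.antidiagonal (n + 1)).erase (1, n), coeff x.1 D * coeff x.2 H := by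
      rw [hmul]; ring
    rw [this]
    exact R.sub_mem (hG (n + 1)) hrest

theorem coeff_map_int_mem (R : Subring ℂ) (p : PowerSeries ℤ) (n : ℕ) :
    coeff n (p.map (Int.castRingHom ℂ)) ∈ R := by
  rw [coeff_map]
  exact intCast_mem R _

theorem coeff_zero_qExpansion_discriminant : coeff 0 (qExpansion 1 Δ) = 0 := by
  rw [qExpansion_discriminant, coeff_map, coeff_zero_eq_constantCoeff_apply, constantCoeff_deltaZ]
  simp

/-- Division by `Δ` preserves the coefficient ring. -/
theorem coeff_discriminantEquiv_mem (R : Subring ℂ) {k : ℤ} (f : ModularForm 𝒮ℒ k)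
    (hcusp : (qExpansion 1 f).coeff 0 = 0) (hf : ∀ n, (qExpansion 1 f).coeff n ∈ R) (n : ℕ) :
    (qExpansion 1 (CuspForm.discriminantEquiv (toCuspForm f hcusp))).coeff n ∈ R := by
  refine coeff_mem_of_mul R (qExpansion 1 Δ) _ coeff_zero_qExpansion_discriminant
    discriminant_qExpansion_coeff_one ?_ ?_ n
  · intro m
    rw [qExpansion_discriminant]
    exact coeff_map_int_mem R _ m
  · intro m
    rw [← qExpansion_eq_qExpansion_discriminant_mul f hcusp]
    exact hf m

end Fermat.Agent.S16.L1h67
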