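import Mathlib
import Fermat.Agent.S23.Basic
import Fermat.Agent.S23.Unbundled
import Fermat.Agent.S23.LevelOneConj
import Fermat.Agent.S20FM.LevelOneRing

/-!
# Level one modular forms with coefficients in a subgroup / subring of `ℂ`  (T16, piece L1)

* `E4Z`, `E6Z`, `DeltaZ : PowerSeries ℤ`: the integral `q`-expansions of `E₄`, `E₆`, `Δ`.
* `coeff_mem_of_first`: integral Sturm bound in level one: if the coefficients `a_i`, `12 i ≤ k`,
  of a level one form of weight `k` lie in an additive subgroup `M ⊆ ℂ`, then all of them do.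
* `exists_mvPolynomial`: `M_k(SL₂(ℤ); R) = R[E₄, E₆, Δ]_k` as an identity in `R⟦X⟧`.
-/

set_option autoImplicit false

open UpperHalfPlane ModularForm ModularFormClass EisensteinSeries
open scoped MatrixGroups ModularForm Manifold ArithmeticFunction.sigma

namespace Fermat.Agent.S16.L1

open Fermat.Agent.S23 Fermat.Agent.S20FM

local notation "Δ" => ModularForm.discriminant

/-- `∑_{n ≥ 1} σ_3(n) q^n`. -/
noncomputable def sig3 : PowerSeries ℤ := PowerSeries.mk fun n => if n = 0 then 0 else (σ 3 n : ℤ)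

/-- `∑_{n ≥ 1} σ_5(n) q^n`. -/
noncomputable def sig5 : PowerSeries ℤ := PowerSeries.mk fun n => if n = 0 then 0 else (σ 5 n : ℤ)

/-- The integral `q`-expansion of `E₄`. -/
noncomputable def E4Z : PowerSeries ℤ :=
  PowerSeries.mk fun n => if n = 0 then 1 else 240 * (σ 3 n : ℤ)

/-- The integral `q`-expansion of `E₆`. -/
noncomputable def E6Z : PowerSeries ℤ :=
  PowerSeries.mk fun n => if n = 0 then 1 else -504 * (σ 5 n : ℤ)

theorem coeff_sig3 (n : ℕ) : PowerSeries.coeff n sig3 = if n = 0 then 0 else (σ 3 n : ℤ) := by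
  simp [sig3]

theorem coeff_sig5 (n : ℕ) : PowerSeries.coeff n sig5 = if n = 0 then 0 else (σ 5 n : ℤ) := by
  simp [sig5]

theorem coeff_E4Z (n : ℕ) :
    PowerSeries.coeff n E4Z = if n = 0 then 1 else 240 * (σ 3 n : ℤ) := by
  simp [E4Z]

theorem coeff_E6Z (n : ℕ) :
    PowerSeries.coeff n E6Z = if n = 0 then 1 else -504 * (σ 5 n : ℤ) := by
  simp [E6Z]

theorem E4Z_eq : E4Z = 1 + PowerSeries.C (240 : ℤ) * sig3 := by
  ext n
  rw [coeff_E4Z, map_add, PowerSeries.coeff_C_mul, coeff_sig3, PowerSeries.coeff_one]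
  split_ifs <;> simp

theorem E6Z_eq : E6Z = 1 - PowerSeries.C (504 : ℤ) * sig5 := by
  ext n
  rw [coeff_E6Z, map_sub, PowerSeries.coeff_C_mul, coeff_sig5, PowerSeries.coeff_one]
  split_ifs <;> simp

theorem qExpansion_E4 :
    qExpansion 1 (E₄ : ℍ → ℂ) = E4Z.map (Int.castRingHom ℂ) := by
  ext m
  rw [E_qExpansion_coeff (by norm_num : 3 ≤ 4) ⟨2, rfl⟩ m, PowerSeries.coeff_map, coeff_E4Z]
  rw [show bernoulli 4 = -1 / 30 by decide +kernel]
  rcases eq_or_ne m 0 with rfl | hm
  · simp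
  · simp only [hm, if_false]
    push_cast
    norm_num

theorem qExpansion_E6 :
    qExpansion 1 (E₆ : ℍ → ℂ) = E6Z.map (Int.castRingHom ℂ) := by
  ext m
  rw [E_qExpansion_coeff (by norm_num : 3 ≤ 6) ⟨3, rfl⟩ m, PowerSeries.coeff_map, coeff_E6Z]
  rw [show bernoulli 6 = 1 / 42 by decide +kernel]
  rcases eq_or_ne m 0 with rfl | hm
  · simp
  · simp only [hm, if_false]
    push_cast
    norm_num

/-- `5 d³ + 7 d⁵ ≡ 0 (mod 12)`. -/
theorem twelve_dvd_aux (d : ℤ) : (12 : ℤ) ∣ 5 * d ^ 3 + 7 * d ^ 5 := by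
  have h : ∀ x : ZMod 12, 5 * x ^ 3 + 7 * x ^ 5 = 0 := by decide
  have := h (d : ZMod 12)
  have h2 : ((5 * d ^ 3 + 7 * d ^ 5 : ℤ) : ZMod 12) = 0 := by
    push_cast
    exact this
  exact (ZMod.intCast_zmod_eq_zero_iff_dvd _ 12).mp h2

theorem twelve_dvd_sigma (n : ℕ) : (12 : ℤ) ∣ 5 * (σ 3 n : ℤ) + 7 * (σ 5 n : ℤ) := by
  rw [ArithmeticFunction.sigma_apply, ArithmeticFunction.sigma_apply]
  push_cast
  rw [Finset.mul_sum, Finset.mul_sum, ← Finset.sum_add_distrib]
  exact Finset.dvd_sum fun d _ => twelve_dvd_aux d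

/-- `(5 ∑ σ_3 q^n + 7 ∑ σ_5 q^n) / 12`. -/
noncomputable def tau0 : PowerSeries ℤ :=
  PowerSeries.mk fun n => (5 * PowerSeries.coeff n sig3 + 7 * PowerSeries.coeff n sig5) / 12

theorem twelve_mul_tau0 :
    PowerSeries.C (12 : ℤ) * tau0 = PowerSeries.C (5 : ℤ) * sig3 + PowerSeries.C (7 : ℤ) * sig5 := by
  ext n
  rw [PowerSeries.coeff_C_mul, map_add, PowerSeries.coeff_C_mul, PowerSeries.coeff_C_mul]
  simp only [tau0, PowerSeries.coeff_mk]
  apply Int.mul_ediv_cancel'
  rw [coeff_sig3, coeff_sig5]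
  split_ifs
  · simp
  · exact twelve_dvd_sigma n

/-- The integral `q`-expansion of `Δ`. -/
noncomputable def DeltaZ : PowerSeries ℤ :=
  tau0 + PowerSeries.C (100 : ℤ) * sig3 ^ 2 + PowerSeries.C (8000 : ℤ) * sig3 ^ 3
    - PowerSeries.C (147 : ℤ) * sig5 ^ 2

theorem DeltaZ_identity : PowerSeries.C (1728 : ℤ) * DeltaZ = E4Z ^ 3 - E6Z ^ 2 := by
  have h := twelve_mul_tau0
  rw [E4Z_eq, E6Z_eq, DeltaZ]
  have e1 : (PowerSeries.C (1728 : ℤ)) = PowerSeries.C (144 : ℤ) * PowerSeries.C (12 : ℤ) := by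
    rw [← map_mul]; norm_num
  have c240 : PowerSeries.C (240 : ℤ) = (240 : PowerSeries ℤ) := by simp
  have c504 : PowerSeries.C (504 : ℤ) = (504 : PowerSeries ℤ) := by simp
  have c144 : PowerSeries.C (144 : ℤ) = (144 : PowerSeries ℤ) := by simp
  have c12 : PowerSeries.C (12 : ℤ) = (12 : PowerSeries ℤ) := by simp
  have c5 : PowerSeries.C (5 : ℤ) = (5 : PowerSeries ℤ) := by simp
  have c7 : PowerSeries.C (7 : ℤ) = (7 : PowerSeries ℤ) := by simp
  have c100 : PowerSeries.C (100 : ℤ) = (100 : PowerSeries ℤ) := by simp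
  have c8000 : PowerSeries.C (8000 : ℤ) = (8000 : PowerSeries ℤ) := by simp
  have c147 : PowerSeries.C (147 : ℤ) = (147 : PowerSeries ℤ) := by simp
  have c1728 : PowerSeries.C (1728 : ℤ) = (1728 : PowerSeries ℤ) := by simp
  rw [c12, c5, c7] at h
  rw [c1728, c240, c504, c100, c8000, c147]
  linear_combination (144 : PowerSeries ℤ) * h

theorem qExpansion_Delta :
    qExpansion 1 (Δ : ℍ → ℂ) = DeltaZ.map (Int.castRingHom ℂ) := by
  have h1 := LevelOneConj.qExpansion_discriminant_eq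
  have h2 := congrArg (PowerSeries.map (Int.castRingHom ℂ)) DeltaZ_identity
  rw [map_mul, map_sub, map_pow, map_pow, ← qExpansion_E4, ← qExpansion_E6] at h2
  rw [← h1] at h2
  have h3 : PowerSeries.map (Int.castRingHom ℂ) (PowerSeries.C (1728 : ℤ)) =
      PowerSeries.C (1728 : ℂ) := by
    rw [PowerSeries.map_C]; simp
  rw [h3] at h2
  have h4 : (1728 : ℂ) • qExpansion 1 (CuspForm.discriminant : ℍ → ℂ) =
      PowerSeries.C (1728 : ℂ) * qExpansion 1 (CuspForm.discriminant : ℍ → ℂ) := by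
    rw [PowerSeries.smul_eq_C_mul]
  rw [h4] at h2
  have h5 : PowerSeries.C (1728 : ℂ) ≠ 0 := by
    rw [Ne, map_eq_zero_iff _ PowerSeries.C_injective]; norm_num
  exact (mul_left_cancel₀ h5 h2).symm


theorem coeff_zero_DeltaZ : PowerSeries.coeff 0 DeltaZ = 0 := by
  have h := congrArg (PowerSeries.coeff 0) qExpansion_Delta
  rw [PowerSeries.coeff_map] at h
  have h0 : (qExpansion 1 (Δ : ℍ → ℂ)).coeff 0 = 0 :=
    IsCF.coeff_zero (k := 12) (CuspForm.isCF (Γ := 𝒮ℒ) (k := 12) CuspForm.discriminant)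
  rw [h0, eq_intCast] at h
  exact_mod_cast h.symm

theorem coeff_one_DeltaZ : PowerSeries.coeff 1 DeltaZ = 1 := by
  have h := congrArg (PowerSeries.coeff 1) qExpansion_Delta
  rw [PowerSeries.coeff_map] at h
  have h0 : (qExpansion 1 (Δ : ℍ → ℂ)).coeff 1 = 1 := discriminant_qExpansion_coeff_one
  rw [h0, eq_intCast] at h
  exact_mod_cast h.symm

theorem coeff_zero_E4Z : PowerSeries.coeff 0 E4Z = 1 := by simp [coeff_E4Z]

theorem coeff_zero_E6Z : PowerSeries.coeff 0 E6Z = 1 := by simp [coeff_E6Z]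

/-! ### Power series lemmas relative to an additive subgroup `M ⊆ ℂ` -/

/-- The coefficientwise image of an integral power series. -/
local notation "ι" => PowerSeries.map (Int.castRingHom ℂ)

/-- If `P` has integer coefficients and the coefficients `0, …, n` of `h` lie in the additive
subgroup `M`, then so does the `n`-th coefficient of `P * h`. -/
theorem coeff_intMul_mem (M : AddSubgroup ℂ) (P : PowerSeries ℤ) (h : PowerSeries ℂ) (n : ℕ)
    (hh : ∀ i ≤ n, PowerSeries.coeff i h ∈ M) : PowerSeries.coeff n (ι P * h) ∈ M := by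
  rw [PowerSeries.coeff_mul]
  refine AddSubgroup.sum_mem _ fun x hx => ?_
  rw [PowerSeries.coeff_map]
  have hx2 : x.2 ≤ n := by
    have := Finset.HasAntidiagonal.mem_antidiagonal.mp hx
    omega
  have := AddSubgroup.zsmul_mem M (hh x.2 hx2) (PowerSeries.coeff x.1 P)
  simpa [zsmul_eq_mul] using this

/-- Division by `Δ`: if `g = Δ * h` and the coefficients `0, …, n + 1` of `g` lie in `M`, then the
coefficients `0, …, n` of `h` lie in `M`. -/
theorem coeff_div_mem (M : AddSubgroup ℂ) (g h : PowerSeries ℂ) (hg : g = ι DeltaZ * h) :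
    ∀ n : ℕ, (∀ i ≤ n + 1, PowerSeries.coeff i g ∈ M) → PowerSeries.coeff n h ∈ M := by
  intro n
  induction n using Nat.strong_induction_on with
  | _ n ih =>
    intro hM
    have hn1 := hM (n + 1) le_rfl
    rw [hg, PowerSeries.coeff_mul, Finset.Nat.sum_antidiagonal_eq_sum_range_succ_mk,
      Finset.sum_range_succ', Finset.sum_range_succ'] at hn1
    simp only [PowerSeries.coeff_map, coeff_zero_DeltaZ, zero_add, coeff_one_DeltaZ,
      Int.cast_zero, zero_mul, add_zero, Int.cast_one, one_mul, eq_intCast, Nat.sub_zero,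
      Nat.add_sub_cancel] at hn1
    have hsum : ∑ x ∈ Finset.range n, ((PowerSeries.coeff (x + 1 + 1) DeltaZ : ℤ) : ℂ) *
        PowerSeries.coeff (n + 1 - (x + 1 + 1)) h ∈ M := by
      refine AddSubgroup.sum_mem _ fun x hx => ?_
      have hx' : x < n := Finset.mem_range.mp hx
      have hlt : n + 1 - (x + 1 + 1) < n := by omega
      have hmem := ih _ hlt (fun i hi => hM i (by omega))
      have := AddSubgroup.zsmul_mem M hmem (PowerSeries.coeff (x + 1 + 1) DeltaZ)
      simpa [zsmul_eq_mul] using this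
    have := AddSubgroup.sub_mem M hn1 hsum
    simpa using this


/-! ### The monomials `E₄^a E₆^b` -/

theorem exists_weight {k : ℤ} (hk : 4 ≤ k) (he : Even k) :
    ∃ a b : ℕ, 4 * (a : ℤ) + 6 * (b : ℤ) = k := by
  obtain ⟨m, hm⟩ := he
  rcases Int.even_or_odd m with ⟨t, ht⟩ | ⟨t, ht⟩
  · refine ⟨t.toNat, 0, ?_⟩
    have : 0 ≤ t := by omega
    rw [Int.toNat_of_nonneg this]; push_cast; omega
  · refine ⟨(t - 1).toNat, 1, ?_⟩
    have : 0 ≤ t - 1 := by omega
    rw [Int.toNat_of_nonneg this]; push_cast; omega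

/-- The monomial `E₄^a E₆^b` as a function. -/
noncomputable def mono (a b : ℕ) : ℍ → ℂ := (E₄ : ℍ → ℂ) ^ a * (E₆ : ℍ → ℂ) ^ b

theorem isMF_mono (a b : ℕ) : IsMF 𝒮ℒ (4 * a + 6 * b) (mono a b) := isMF_monomial a b

theorem qExpansion_mono (a b : ℕ) :
    qExpansion 1 (mono a b) = ι (E4Z ^ a * E6Z ^ b) := by
  have n4 : Nice (E₄ : ℍ → ℂ) := isMF_E4.nice_levelOne
  have n6 : Nice (E₆ : ℍ → ℂ) := isMF_E6.nice_levelOne
  rw [mono, qExp_mul (n4.pow a) (n6.pow b), qExp_pow n4, qExp_pow n6, qExpansion_E4,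
    qExpansion_E6, map_mul, map_pow, map_pow]

theorem coeff_zero_monoZ (a b : ℕ) : PowerSeries.coeff 0 (E4Z ^ a * E6Z ^ b) = 1 := by
  simp only [PowerSeries.coeff_zero_eq_constantCoeff, map_mul, map_pow]
  have h4 := coeff_zero_E4Z
  have h6 := coeff_zero_E6Z
  simp only [PowerSeries.coeff_zero_eq_constantCoeff] at h4 h6
  rw [h4, h6]; simp

/-- Coefficients of `c • (integral series)` lie in `M` as soon as `c ∈ M`. -/
theorem coeff_smul_int_mem (M : AddSubgroup ℂ) {c : ℂ} (hc : c ∈ M) (P : PowerSeries ℤ) (n : ℕ) :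
    PowerSeries.coeff n (c • ι P) ∈ M := by
  rw [PowerSeries.coeff_smul, PowerSeries.coeff_map, smul_eq_mul, mul_comm]
  have := AddSubgroup.zsmul_mem M hc (PowerSeries.coeff n P)
  simpa [zsmul_eq_mul] using this

/-! ### The integral Sturm bound in level one -/

/-- One step of the reduction: a level one form `f` of even weight `k ≥ 4` is
`a₀(f) • E₄^a E₆^b + Δ * h` with `h` of weight `k - 12`. -/
theorem exists_step {k : ℤ} {f : ℍ → ℂ} (hf : IsMF 𝒮ℒ k f) {a b : ℕ}
    (hab : 4 * (a : ℤ) + 6 * (b : ℤ) = k) :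
    ∃ h : ℍ → ℂ, IsMF 𝒮ℒ (k - 12) h ∧
      f = (qExpansion 1 f).coeff 0 • mono a b + (Δ : ℍ → ℂ) * h ∧
      qExpansion 1 f = (qExpansion 1 f).coeff 0 • ι (E4Z ^ a * E6Z ^ b)
        + ι DeltaZ * qExpansion 1 h := by
  set c : ℂ := (qExpansion 1 f).coeff 0 with hc
  have hm : IsMF 𝒮ℒ k (mono a b) := (isMF_mono a b).congr_weight hab
  have hg : IsMF 𝒮ℒ k (f - c • mono a b) := hf.sub (hm.smul c)
  have hq : qExpansion 1 (f - c • mono a b) = qExpansion 1 f - c • ι (E4Z ^ a * E6Z ^ b) := by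
    rw [qExp_sub hf.nice_levelOne (hm.nice_levelOne.smul c), qExp_smul c hm.nice_levelOne,
      qExpansion_mono]
  have hg0 : (qExpansion 1 (f - c • mono a b)).coeff 0 = 0 := by
    rw [hq, map_sub, PowerSeries.coeff_smul, PowerSeries.coeff_map, coeff_zero_monoZ]
    simp [hc]
  obtain ⟨h, hh, hgh⟩ := exists_eq_Delta_mul hg hg0
  refine ⟨h, hh, ?_, ?_⟩
  · rw [← hgh]; ring
  · have hD : Nice (Δ : ℍ → ℂ) := isMF_Delta.nice_levelOne
    have : qExpansion 1 (f - c • mono a b) = ι DeltaZ * qExpansion 1 h := by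
      rw [hgh, qExp_mul hD hh.nice_levelOne, qExpansion_Delta]
    rw [← this, hq]; ring

/-- **Integral Sturm bound in level one.**  Let `M` be an additive subgroup of `ℂ` and `f` a level
one modular form of weight `k`.  If the coefficients `a_i(f)` with `12 i ≤ k` lie in `M`, then all
coefficients of `f` lie in `M`. -/
theorem coeff_mem_of_first (M : AddSubgroup ℂ) (k : ℤ) (f : ℍ → ℂ) (hf : IsMF 𝒮ℒ k f)
    (hM : ∀ i : ℕ, 12 * (i : ℤ) ≤ k → (qExpansion 1 f).coeff i ∈ M) (n : ℕ) :
    (qExpansion 1 f).coeff n ∈ M := by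
  have key : ∀ N : ℕ, ∀ k : ℤ, k < N → ∀ f : ℍ → ℂ, IsMF 𝒮ℒ k f →
      (∀ i : ℕ, 12 * (i : ℤ) ≤ k → (qExpansion 1 f).coeff i ∈ M) →
      ∀ n : ℕ, (qExpansion 1 f).coeff n ∈ M := by
    intro N
    induction N with
    | zero =>
      intro k hk f hf _ n
      rw [levelOne_neg (by simpa using hk) hf, qExp_zero]
      simp
    | succ N ih =>
      intro k hk f hf hM n
      rcases lt_trichotomy k 0 with hneg | hzero | hpos
      · rw [levelOne_neg hneg hf, qExp_zero]; simp
      · subst hzero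
        obtain ⟨c, hc⟩ := levelOne_zero hf
        have hfc : f = c • (1 : ℍ → ℂ) := by rw [hc]; funext z; simp
        have hq : qExpansion 1 f = c • (1 : PowerSeries ℂ) := by
          rw [hfc, qExp_smul c Nice.one, qExp_one]
        have h0 := hM 0 (by simp)
        rw [hq] at h0 ⊢
        rcases Nat.eq_zero_or_pos n with rfl | hn
        · exact h0
        · rw [PowerSeries.coeff_smul, PowerSeries.coeff_one, if_neg hn.ne']; simp
      · rcases Int.even_or_odd k with hev | hodd
        swap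
        · rw [levelOne_odd hodd hf, qExp_zero]; simp
        by_cases h2 : k = 2
        · subst h2
          rw [levelOne_two hf, qExp_zero]; simp
        have hk4 : 4 ≤ k := by
          obtain ⟨m, hm⟩ := hev
          omega
        obtain ⟨a, b, hab⟩ := exists_weight hk4 hev
        obtain ⟨h, hh, -, hq⟩ := exists_step hf hab
        set c : ℂ := (qExpansion 1 f).coeff 0 with hc
        have hcM : c ∈ M := hM 0 (by simpa using hpos.le)
        -- the quotient `h` satisfies the hypothesis in weight `k - 12`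
        have hg : qExpansion 1 f - c • ι (E4Z ^ a * E6Z ^ b) = ι DeltaZ * qExpansion 1 h := by
          rw [hq]; ring
        have hhM : ∀ i : ℕ, 12 * (i : ℤ) ≤ k - 12 → (qExpansion 1 h).coeff i ∈ M := by
          intro i hi
          refine coeff_div_mem M _ _ hg i fun j hj => ?_
          rw [map_sub]
          refine AddSubgroup.sub_mem M (hM j ?_) (coeff_smul_int_mem M hcM _ j)
          have : (j : ℤ) ≤ i + 1 := by exact_mod_cast hj
          omega
        have hall := ih (k - 12) (by push_cast at hk; omega) h hh hhM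
        rw [hq, map_add]
        exact AddSubgroup.add_mem M (coeff_smul_int_mem M hcM _ n)
          (coeff_intMul_mem M DeltaZ _ n fun i _ => hall i)
  exact key (k + 1).toNat k (by
    rcases le_or_gt 0 (k + 1) with h | h
    · rw [Int.toNat_of_nonneg h]; omega
    · have : (0 : ℤ) ≤ ((k + 1).toNat : ℤ) := Int.natCast_nonneg _
      omega) f hf hM n


/-! ### The structure theorem `M_k(SL₂(ℤ); R) = R[E₄, E₆, Δ]_k` -/

section Structure

variable {R : Type*} [CommRing R]

/-- The generators `E₄, E₆, Δ` as power series over an arbitrary commutative ring. -/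
noncomputable def gens (R : Type*) [CommRing R] : Fin 3 → PowerSeries R :=
  ![E4Z.map (Int.castRingHom R), E6Z.map (Int.castRingHom R), DeltaZ.map (Int.castRingHom R)]

/-- The weights `4, 6, 12` of `E₄, E₆, Δ`. -/
def wts : Fin 3 → ℤ := ![4, 6, 12]

theorem map_map_int (φ : R →+* ℂ) (P : PowerSeries ℤ) :
    PowerSeries.map φ (P.map (Int.castRingHom R)) = ι P := by
  ext n
  simp [PowerSeries.coeff_map]

/-- Evaluation of a polynomial in `E₄, E₆, Δ` as a power series over `ℂ`. -/
noncomputable def evalQ (φ : R →+* ℂ) (P : MvPolynomial (Fin 3) R) : PowerSeries ℂ :=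
  PowerSeries.map φ (MvPolynomial.aeval (gens R) P)

theorem evalQ_zero (φ : R →+* ℂ) : evalQ φ (0 : MvPolynomial (Fin 3) R) = 0 := by
  simp [evalQ]

theorem evalQ_C (φ : R →+* ℂ) (r : R) :
    evalQ φ (MvPolynomial.C r : MvPolynomial (Fin 3) R) = φ r • (1 : PowerSeries ℂ) := by
  rw [evalQ, MvPolynomial.aeval_C, PowerSeries.algebraMap_eq, PowerSeries.map_C,
    PowerSeries.smul_eq_C_mul, mul_one]

theorem evalQ_step (φ : R →+* ℂ) (r : R) (a b : ℕ) (Q : MvPolynomial (Fin 3) R) :
    evalQ φ (MvPolynomial.C r * MvPolynomial.X 0 ^ a * MvPolynomial.X 1 ^ b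
      + MvPolynomial.X 2 * Q) =
      φ r • ι (E4Z ^ a * E6Z ^ b) + ι DeltaZ * evalQ φ Q := by
  simp only [evalQ, map_add, map_mul, map_pow, MvPolynomial.aeval_C, MvPolynomial.aeval_X,
    PowerSeries.algebraMap_eq, PowerSeries.map_C]
  have h0 : gens R 0 = E4Z.map (Int.castRingHom R) := rfl
  have h1 : gens R 1 = E6Z.map (Int.castRingHom R) := rfl
  have h2 : gens R 2 = DeltaZ.map (Int.castRingHom R) := rfl
  rw [h0, h1, h2, map_map_int, map_map_int, map_map_int, PowerSeries.smul_eq_C_mul]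
  ring

/-- Evaluation of a polynomial in `E₄, E₆, Δ` at a point of the upper half plane. -/
noncomputable def evalF (φ : R →+* ℂ) (z : ℍ) (P : MvPolynomial (Fin 3) R) : ℂ :=
  MvPolynomial.eval₂ φ ![E₄ z, E₆ z, Δ z] P

theorem evalF_step (φ : R →+* ℂ) (z : ℍ) (r : R) (a b : ℕ) (Q : MvPolynomial (Fin 3) R) :
    evalF φ z (MvPolynomial.C r * MvPolynomial.X 0 ^ a * MvPolynomial.X 1 ^ b
      + MvPolynomial.X 2 * Q) =
      φ r * (E₄ z ^ a * E₆ z ^ b) + Δ z * evalF φ z Q := by
  simp only [evalF, MvPolynomial.eval₂_add, MvPolynomial.eval₂_mul, MvPolynomial.eval₂_pow,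
    MvPolynomial.eval₂_C, MvPolynomial.eval₂_X]
  simp only [Matrix.cons_val_zero, Matrix.cons_val_one, Matrix.cons_val_two]
  simp
  ring

theorem isWH_step (r : R) (a b : ℕ) {k : ℤ} (hab : 4 * (a : ℤ) + 6 * (b : ℤ) = k)
    {Q : MvPolynomial (Fin 3) R} (hQ : MvPolynomial.IsWeightedHomogeneous wts Q (k - 12)) :
    MvPolynomial.IsWeightedHomogeneous wts
      (MvPolynomial.C r * MvPolynomial.X 0 ^ a * MvPolynomial.X 1 ^ b + MvPolynomial.X 2 * Q) k := by
  refine MvPolynomial.IsWeightedHomogeneous.add ?_ ?_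
  · have hC : MvPolynomial.IsWeightedHomogeneous wts (MvPolynomial.C r : MvPolynomial (Fin 3) R) 0 :=
      MvPolynomial.isWeightedHomogeneous_C wts r
    have h0 := (MvPolynomial.isWeightedHomogeneous_X R wts (0 : Fin 3)).pow a
    have h1 := (MvPolynomial.isWeightedHomogeneous_X R wts (1 : Fin 3)).pow b
    have := (hC.mul h0).mul h1
    convert this using 1
    simp only [wts, Matrix.cons_val_zero, Matrix.cons_val_one, zero_add]
    rw [← hab]; ring
  · have h2 := MvPolynomial.isWeightedHomogeneous_X R wts (2 : Fin 3)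
    have := h2.mul hQ
    convert this using 1
    simp only [wts]
    simp

/-- **Structure theorem.**  Let `φ : R → ℂ` be a ring homomorphism and `f` a level one form of
weight `k` whose coefficients `a_i(f)`, `12 i ≤ k`, lie in the image of `φ`.  Then `f` is an
isobaric polynomial of weight `k` in `E₄, E₆, Δ` with coefficients in `R`, as an identity of
`q`-expansions. -/
theorem exists_mvPolynomial (φ : R →+* ℂ) (k : ℤ) (f : ℍ → ℂ) (hf : IsMF 𝒮ℒ k f)
    (hR : ∀ i : ℕ, 12 * (i : ℤ) ≤ k → (qExpansion 1 f).coeff i ∈ Set.range φ) :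
    ∃ P : MvPolynomial (Fin 3) R, MvPolynomial.IsWeightedHomogeneous wts P k ∧
      qExpansion 1 f = evalQ φ P ∧ ∀ z : ℍ, f z = evalF φ z P := by
  set M : AddSubgroup ℂ := φ.range.toAddSubgroup with hMdef
  have memM : ∀ x : ℂ, x ∈ M ↔ x ∈ Set.range φ := fun x => Iff.rfl
  have key : ∀ N : ℕ, ∀ k : ℤ, k < N → ∀ f : ℍ → ℂ, IsMF 𝒮ℒ k f →
      (∀ i : ℕ, 12 * (i : ℤ) ≤ k → (qExpansion 1 f).coeff i ∈ M) →
      ∃ P : MvPolynomial (Fin 3) R, MvPolynomial.IsWeightedHomogeneous wts P k ∧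
        qExpansion 1 f = evalQ φ P ∧ ∀ z : ℍ, f z = evalF φ z P := by
    intro N
    induction N with
    | zero =>
      intro k hk f hf _
      refine ⟨0, MvPolynomial.isWeightedHomogeneous_zero R wts k, ?_, ?_⟩
      · rw [levelOne_neg (by simpa using hk) hf, qExp_zero, evalQ_zero]
      · intro z; rw [levelOne_neg (by simpa using hk) hf]; simp [evalF]
    | succ N ih =>
      intro k hk f hf hM
      rcases lt_trichotomy k 0 with hneg | hzero | hpos
      · refine ⟨0, MvPolynomial.isWeightedHomogeneous_zero R wts k, ?_, ?_⟩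
        · rw [levelOne_neg hneg hf, qExp_zero, evalQ_zero]
        · intro z; rw [levelOne_neg hneg hf]; simp [evalF]
      · subst hzero
        obtain ⟨c, hc⟩ := levelOne_zero hf
        have hfc : f = c • (1 : ℍ → ℂ) := by rw [hc]; funext z; simp
        have hq : qExpansion 1 f = c • (1 : PowerSeries ℂ) := by
          rw [hfc, qExp_smul c Nice.one, qExp_one]
        have h0 := hM 0 (by simp)
        rw [hq] at h0
        simp only [PowerSeries.coeff_smul, PowerSeries.coeff_one, if_true, smul_eq_mul,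
          mul_one] at h0
        obtain ⟨r, hr⟩ := (memM c).mp h0
        refine ⟨MvPolynomial.C r, MvPolynomial.isWeightedHomogeneous_C wts r, ?_, ?_⟩
        · rw [hq, evalQ_C, hr]
        · intro z; rw [hc]; simp [evalF, hr]
      · rcases Int.even_or_odd k with hev | hodd
        swap
        · refine ⟨0, MvPolynomial.isWeightedHomogeneous_zero R wts k, ?_, ?_⟩
          · rw [levelOne_odd hodd hf, qExp_zero, evalQ_zero]
          · intro z; rw [levelOne_odd hodd hf]; simp [evalF]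
        by_cases h2 : k = 2
        · subst h2
          refine ⟨0, MvPolynomial.isWeightedHomogeneous_zero R wts 2, ?_, ?_⟩
          · rw [levelOne_two hf, qExp_zero, evalQ_zero]
          · intro z; rw [levelOne_two hf]; simp [evalF]
        have hk4 : 4 ≤ k := by
          obtain ⟨m, hm⟩ := hev
          omega
        obtain ⟨a, b, hab⟩ := exists_weight hk4 hev
        obtain ⟨h, hh, hfun, hq⟩ := exists_step hf hab
        set c : ℂ := (qExpansion 1 f).coeff 0 with hc
        have hcM : c ∈ M := hM 0 (by simpa using hpos.le)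
        obtain ⟨r, hr⟩ := (memM c).mp hcM
        have hg : qExpansion 1 f - c • ι (E4Z ^ a * E6Z ^ b) = ι DeltaZ * qExpansion 1 h := by
          rw [hq]; ring
        have hhM : ∀ i : ℕ, 12 * (i : ℤ) ≤ k - 12 → (qExpansion 1 h).coeff i ∈ M := by
          intro i hi
          refine coeff_div_mem M _ _ hg i fun j hj => ?_
          rw [map_sub]
          refine AddSubgroup.sub_mem M (hM j ?_) (coeff_smul_int_mem M hcM _ j)
          have : (j : ℤ) ≤ i + 1 := by exact_mod_cast hj
          omega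
        obtain ⟨Q, hQ, hQe, hQf⟩ := ih (k - 12) (by push_cast at hk; omega) h hh hhM
        refine ⟨MvPolynomial.C r * MvPolynomial.X 0 ^ a * MvPolynomial.X 1 ^ b
          + MvPolynomial.X 2 * Q, isWH_step r a b hab hQ, ?_, ?_⟩
        · rw [evalQ_step, hr, ← hQe]
          exact hq
        · intro z
          rw [evalF_step, hr, ← hQf z]
          have := congrFun hfun z
          simpa [mono, mul_assoc] using this
  exact key (k + 1).toNat k (by
    rcases le_or_gt 0 (k + 1) with h | h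
    · rw [Int.toNat_of_nonneg h]; omega
    · have : (0 : ℤ) ≤ ((k + 1).toNat : ℤ) := Int.natCast_nonneg _
      omega) f hf (fun i hi => (memM _).mpr (hR i hi))

/-- Subring form of the structure theorem. -/
theorem exists_mvPolynomial_subring (S : Subring ℂ) (k : ℤ) (f : ℍ → ℂ) (hf : IsMF 𝒮ℒ k f)
    (hS : ∀ i : ℕ, 12 * (i : ℤ) ≤ k → (qExpansion 1 f).coeff i ∈ S) :
    ∃ P : MvPolynomial (Fin 3) S, MvPolynomial.IsWeightedHomogeneous wts P k ∧
      qExpansion 1 f = evalQ S.subtype P ∧ ∀ z : ℍ, f z = evalF S.subtype z P :=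
  exists_mvPolynomial S.subtype k f hf fun i hi => ⟨⟨_, hS i hi⟩, rfl⟩

/-- Ideal form of the integral Sturm bound: if the first coefficients lie in the image of an
ideal `I` of `R`, all coefficients do. -/
theorem coeff_mem_ideal_of_first (φ : R →+* ℂ) (I : Ideal R) (k : ℤ) (f : ℍ → ℂ)
    (hf : IsMF 𝒮ℒ k f)
    (hI : ∀ i : ℕ, 12 * (i : ℤ) ≤ k → ∃ x ∈ I, (qExpansion 1 f).coeff i = φ x) (n : ℕ) :
    ∃ x ∈ I, (qExpansion 1 f).coeff n = φ x := by
  have := coeff_mem_of_first (AddSubgroup.map φ.toAddMonoidHom I.toAddSubgroup) k f hf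
    (fun i hi => by
      obtain ⟨x, hx, hxe⟩ := hI i hi
      exact ⟨x, hx, hxe.symm⟩) n
  obtain ⟨x, hx, hxe⟩ := this
  exact ⟨x, hx, hxe.symm⟩

/-- Bundled form of the integral Sturm bound. -/
theorem coeff_mem_of_first' (M : AddSubgroup ℂ) {k : ℤ} (F : ModularForm 𝒮ℒ k)
    (hM : ∀ i : ℕ, 12 * (i : ℤ) ≤ k → (qExpansion 1 F).coeff i ∈ M) (n : ℕ) :
    (qExpansion 1 F).coeff n ∈ M :=
  coeff_mem_of_first M k F F.isMF hM n

/-- The natural-number weights `4, 6, 12`. -/
def wtsNat : Fin 3 → ℕ := ![4, 6, 12]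

/-- Passage from integer weights to natural-number weights. -/
theorem isWH_nat {P : MvPolynomial (Fin 3) R} {k : ℕ}
    (hP : MvPolynomial.IsWeightedHomogeneous wts P (k : ℤ)) :
    MvPolynomial.IsWeightedHomogeneous wtsNat P k := by
  intro d hd
  have h := hP hd
  have key : (Finsupp.weight wts d : ℤ) = ((Finsupp.weight wtsNat d : ℕ) : ℤ) := by
    simp only [Finsupp.weight_apply, Finsupp.sum, wts, wtsNat]
    push_cast
    refine Finset.sum_congr rfl fun i _ => ?_
    fin_cases i <;> simp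
  rw [key] at h
  exact_mod_cast h

end Structure

/-- `E₄`, `E₆`, `Δ` have integral `q`-expansions (restated coefficientwise). -/
theorem coeff_E4_int (n : ℕ) :
    (qExpansion 1 (E₄ : ℍ → ℂ)).coeff n = ((PowerSeries.coeff n E4Z : ℤ) : ℂ) := by
  rw [qExpansion_E4, PowerSeries.coeff_map, eq_intCast]

theorem coeff_E6_int (n : ℕ) :
    (qExpansion 1 (E₆ : ℍ → ℂ)).coeff n = ((PowerSeries.coeff n E6Z : ℤ) : ℂ) := by
  rw [qExpansion_E6, PowerSeries.coeff_map, eq_intCast]

theorem coeff_Delta_int (n : ℕ) :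
    (qExpansion 1 (Δ : ℍ → ℂ)).coeff n = ((PowerSeries.coeff n DeltaZ : ℤ) : ℂ) := by
  rw [qExpansion_Delta, PowerSeries.coeff_map, eq_intCast]

end Fermat.Agent.S16.L1
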