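/-
T16 / L1 (part 3): the main theorem.  A modular form of level one and weight `k` whose
`q`-expansion has coefficients in a subring `R ⊆ ℂ` lies in the `R`-span of the isobaric monomials
`E₄^a E₆^b Δ^c`, `4a + 6b + 12c = k`.
-/
import Fermat.Agent.S16.LevelOneInt

set_option autoImplicit false

namespace Fermat.Agent.S16.L1h67

open UpperHalfPlane ModularForm ModularFormClass EisensteinSeries PowerSeries
open scoped MatrixGroups ModularForm Manifold

local notation "Δ" => ModularForm.discriminant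

/-- the monomial function `E₄^a E₆^b Δ^c` -/
noncomputable def mono (a b c : ℕ) : ℍ → ℂ := fun τ => E₄ τ ^ a * E₆ τ ^ b * Δ τ ^ c

/-- the isobaric monomials of weight `k` -/
def monos (k : ℤ) : Set (ℍ → ℂ) :=
  {G | ∃ a b c : ℕ, (4 * a + 6 * b + 12 * c : ℤ) = k ∧ G = mono a b c}

/-- the `R`-span of the isobaric monomials of weight `k` -/
noncomputable def isoSpan (R : Subring ℂ) (k : ℤ) : Submodule R (ℍ → ℂ) :=
  Submodule.span R (monos k)

theorem mono_mem_isoSpan (R : Subring ℂ) {k : ℤ} {a b c : ℕ}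
    (h : (4 * a + 6 * b + 12 * c : ℤ) = k) : mono a b c ∈ isoSpan R k :=
  Submodule.subset_span ⟨a, b, c, h, rfl⟩

theorem discriminant_mul_mem (R : Subring ℂ) {k : ℤ} {F : ℍ → ℂ} (hF : F ∈ isoSpan R (k - 12)) :
    (fun τ => Δ τ * F τ) ∈ isoSpan R k := by
  refine Submodule.span_induction (p := fun F _ => (fun τ => Δ τ * F τ) ∈ isoSpan R k)
    ?_ ?_ ?_ ?_ hF
  · rintro G ⟨a, b, c, h, rfl⟩
    have : (fun τ => Δ τ * mono a b c τ) = mono a b (c + 1) := by
      funext τ
      simp only [mono]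
      ring
    rw [this]
    apply mono_mem_isoSpan
    push_cast
    linarith
  · simp only [Pi.zero_apply, mul_zero]
    exact Submodule.zero_mem _
  · intro x y _ _ hx hy
    have : (fun τ => Δ τ * (x + y) τ) = (fun τ => Δ τ * x τ) + fun τ => Δ τ * y τ := by
      funext τ
      simp only [Pi.add_apply]
      ring
    rw [this]
    exact Submodule.add_mem _ hx hy
  · intro r x _ hx
    have : (fun τ => Δ τ * (r • x) τ) = r • fun τ => Δ τ * x τ := by
      funext τ
      simp only [Pi.smul_apply, Subring.smul_def, smul_eq_mul]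
      ring
    rw [this]
    exact Submodule.smul_mem _ r hx

/-- the modular form `E₄^a E₆^b` -/
noncomputable def monoForm (a b : ℕ) : ModularForm 𝒮ℒ ((a : ℤ) * 4 + (b : ℤ) * 6) :=
  (E₄.pow a).mul (E₆.pow b)

theorem monoForm_apply (a b : ℕ) (τ : ℍ) : monoForm a b τ = E₄ τ ^ a * E₆ τ ^ b := by
  simp [monoForm, ModularForm.coe_mul, ModularForm.coe_pow]

theorem qExpansion_monoForm (a b : ℕ) :
    qExpansion 1 (monoForm a b) = (e4Z ^ a * e6Z ^ b).map (Int.castRingHom ℂ) := by
  rw [monoForm, ModularForm.qExpansion_mul one_pos one_mem_strictPeriods_SL,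
    ModularForm.qExpansion_pow one_pos one_mem_strictPeriods_SL,
    ModularForm.qExpansion_pow one_pos one_mem_strictPeriods_SL, qExpansion_E4, qExpansion_E6,
    map_mul, map_pow, map_pow]

theorem exists_four_mul_add_six_mul {j : ℕ} (hj : 4 ≤ j) (hev : Even j) :
    ∃ a b : ℕ, 4 * a + 6 * b = j := by
  obtain ⟨m, rfl⟩ := hev
  rcases Nat.even_or_odd' m with ⟨t, rfl | rfl⟩
  · exact ⟨t, 0, by omega⟩
  · exact ⟨t - 1, 1, by omega⟩

/-- a level-one form of weight `0` with coefficients in `R` is a constant in `R` -/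
theorem mem_isoSpan_weight_zero (R : Subring ℂ) (f : ModularForm 𝒮ℒ 0)
    (hf : ∀ n, (qExpansion 1 f).coeff n ∈ R) : (f : ℍ → ℂ) ∈ isoSpan R 0 := by
  obtain ⟨c, hc⟩ := levelOne_weight_zero_const f
  have hfc : f = c • (1 : ModularForm 𝒮ℒ 0) := by
    ext τ
    rw [hc]
    simp
  have hq : qExpansion 1 f = c • (1 : PowerSeries ℂ) := by
    rw [hfc, FunLike.coe_smul, ModularForm.qExpansion_smul one_pos one_mem_strictPeriods_SL,
      ModularForm.qExpansion_one]
  have hcR : c ∈ R := by
    have := hf 0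
    rw [hq] at this
    simpa using this
  have hmono : (f : ℍ → ℂ) = (⟨c, hcR⟩ : R) • mono 0 0 0 := by
    funext τ
    rw [hc]
    simp [mono, Subring.smul_def]
  rw [hmono]
  exact Submodule.smul_mem _ _ (mono_mem_isoSpan R (by norm_num))

/-- **Level-one integrality.** A level-one modular form of weight `k` whose `q`-expansion has
coefficients in the subring `R ⊆ ℂ` is an `R`-linear combination of the monomials
`E₄^a E₆^b Δ^c` with `4a + 6b + 12c = k`. -/
theorem mem_isoSpan (R : Subring ℂ) : ∀ (k : ℤ) (f : ModularForm 𝒮ℒ k),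
    (∀ n, (qExpansion 1 f).coeff n ∈ R) → (f : ℍ → ℂ) ∈ isoSpan R k := by
  suffices H : ∀ (m : ℕ) (k : ℤ), k.toNat = m → ∀ f : ModularForm 𝒮ℒ k,
      (∀ n, (qExpansion 1 f).coeff n ∈ R) → (f : ℍ → ℂ) ∈ isoSpan R k from
    fun k f hf => H k.toNat k rfl f hf
  intro m
  induction m using Nat.strong_induction_on with
  | _ m ih =>
  intro k hkm f hf
  -- negative weight
  by_cases hneg : k < 0
  · rw [levelOne_neg_weight_eq_zero hneg f]
    exact Submodule.zero_mem _
  rw [not_lt] at hneg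
  -- odd weight
  by_cases hodd : Odd k
  · rw [ModularForm.levelOne_odd_weight_eq_zero hodd f]
    simp only [FunLike.coe_zero]
    exact Submodule.zero_mem _
  rw [Int.not_odd_iff_even] at hodd
  obtain ⟨j, hj⟩ : ∃ j : ℕ, k = j := ⟨k.toNat, (Int.toNat_of_nonneg hneg).symm⟩
  subst hj
  have hjev : Even j := by exact_mod_cast hodd
  -- weight `0`
  rcases Nat.eq_zero_or_pos j with rfl | hjpos
  · exact mem_isoSpan_weight_zero R f hf
  -- weight `2`
  by_cases hj2 : j = 2
  · subst hj2
    have hzero : f = 0 := rank_zero_iff_forall_zero.mp levelOne_weight_two_rank_zero f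
    rw [hzero]
    simp only [FunLike.coe_zero]
    exact Submodule.zero_mem _
  -- weight `≥ 4`
  have hj4 : 4 ≤ j := by
    obtain ⟨t, ht⟩ := hjev
    omega
  obtain ⟨a, b, hab⟩ := exists_four_mul_add_six_mul hj4 hjev
  have hwt : (a : ℤ) * 4 + (b : ℤ) * 6 = (j : ℤ) := by
    have : ((4 * a + 6 * b : ℕ) : ℤ) = (j : ℤ) := by rw [hab]
    push_cast at this
    linarith
  set M : ModularForm 𝒮ℒ (j : ℤ) := ModularForm.mcast hwt (monoForm a b) with hM
  have hMq : qExpansion 1 M = (e4Z ^ a * e6Z ^ b).map (Int.castRingHom ℂ) := by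
    rw [hM, ModularForm.qExpansion_mcast, qExpansion_monoForm]
  set a0 : ℂ := (qExpansion 1 f).coeff 0 with ha0
  have ha0R : a0 ∈ R := hf 0
  set g : ModularForm 𝒮ℒ (j : ℤ) := f - a0 • M with hg
  have hgq : qExpansion 1 g = qExpansion 1 f - a0 • qExpansion 1 M := by
    rw [hg, FunLike.coe_sub, ModularForm.qExpansion_sub one_pos one_mem_strictPeriods_SL,
      FunLike.coe_smul, ModularForm.qExpansion_smul one_pos one_mem_strictPeriods_SL]
  have hgR : ∀ n, (qExpansion 1 g).coeff n ∈ R := by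
    intro n
    rw [hgq, map_sub, PowerSeries.coeff_smul, smul_eq_mul, hMq]
    exact R.sub_mem (hf n) (R.mul_mem ha0R (coeff_map_int_mem R _ n))
  have hM0 : (qExpansion 1 M).coeff 0 = 1 := by
    have h1 : constantCoeff (e4Z ^ a * e6Z ^ b) = 1 := by
      rw [map_mul, map_pow, map_pow, constantCoeff_e4Z, constantCoeff_e6Z, one_pow, one_pow,
        one_mul]
    rw [hMq, coeff_map, coeff_zero_eq_constantCoeff_apply, h1]
    simp
  have hg0 : (qExpansion 1 g).coeff 0 = 0 := by
    rw [hgq, map_sub, PowerSeries.coeff_smul, smul_eq_mul, hM0, mul_one, ha0, sub_self]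
  -- divide by `Δ`
  set h : ModularForm 𝒮ℒ ((j : ℤ) - 12) := CuspForm.discriminantEquiv (toCuspForm g hg0) with hh
  have hhR : ∀ n, (qExpansion 1 h).coeff n ∈ R := coeff_discriminantEquiv_mem R g hg0 hgR
  have hlt : ((j : ℤ) - 12).toNat < m := by
    rw [← hkm]
    simp only [Int.toNat_natCast]
    omega
  have hhspan : (h : ℍ → ℂ) ∈ isoSpan R ((j : ℤ) - 12) := ih _ hlt _ rfl h hhR
  have hgfun : (g : ℍ → ℂ) = fun τ => Δ τ * h τ := by
    funext τ
    rw [hh, discriminant_mul_discriminantEquiv_apply]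
    rfl
  have hgspan : (g : ℍ → ℂ) ∈ isoSpan R (j : ℤ) := by
    rw [hgfun]
    exact discriminant_mul_mem R hhspan
  have hMspan : (M : ℍ → ℂ) ∈ isoSpan R (j : ℤ) := by
    have : (M : ℍ → ℂ) = mono a b 0 := by
      funext τ
      rw [hM, ModularForm.coe_mcast, monoForm_apply, mono]
      simp
    rw [this]
    apply mono_mem_isoSpan
    push_cast
    linarith
  have hf_eq : (f : ℍ → ℂ) = (g : ℍ → ℂ) + (⟨a0, ha0R⟩ : R) • (M : ℍ → ℂ) := by
    funext τ
    rw [hg]
    simp [Subring.smul_def]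
  rw [hf_eq]
  exact Submodule.add_mem _ hgspan (Submodule.smul_mem _ _ hMspan)

end Fermat.Agent.S16.L1h67
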