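/-
T16 (S16, Eisenstein ideal index) — the SHARED interface between ARITH and the seven "U" packages.
Owner: helper35 (T16 coordination).  Mathlib + one prelude lemma.

* `NoConst p l r`    : there is NO `G ∈ M₂(Γ₀(p))` whose q-expansion at `∞` is
                        `x + l^r · (∑_{k ≥ 1} c_k q^k)` with `x` a rational `l`-adic unit, `c_k ∈ ℤ`.
* `NoConstInt p l r` : the same with `x` an INTEGER prime to `l` (what the U packages prove).
* `noConst_of_int`   : `NoConstInt p l r → NoConst p l r` (clear the denominator of `x`).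
-/
import Mathlib
import Fermat.Prelude.Thm_CongruenceSubgroup_one_mem_strictPeriods_Gamma0

open scoped MatrixGroups ModularForm
open ModularFormClass UpperHalfPlane

namespace Fermat.Agent.S16

/-- No weight-2 form on `Γ₀(p)` has q-expansion `x + l^r·(integral, no constant term)` with `x` a
rational `l`-unit. -/
def NoConst (p l r : ℕ) : Prop :=
  ¬ ∃ G : ModularForm (CongruenceSubgroup.Gamma0 p) 2,
      (∃ x : ℚ, x ≠ 0 ∧ padicValRat l x = 0 ∧ (qExpansion 1 G).coeff 0 = (x : ℂ)) ∧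
      ∀ k : ℕ, 1 ≤ k → ∃ c : ℤ, (qExpansion 1 G).coeff k = (l : ℂ) ^ r * (c : ℂ)

/-- No weight-2 form on `Γ₀(p)` has q-expansion `c₀ + l^r·(integral, no constant term)` with `c₀` an
integer prime to `l`. -/
def NoConstInt (p l r : ℕ) : Prop :=
  ¬ ∃ G : ModularForm (CongruenceSubgroup.Gamma0 p) 2,
      (∃ c₀ : ℤ, ¬ (l : ℤ) ∣ c₀ ∧ (qExpansion 1 G).coeff 0 = (c₀ : ℂ)) ∧
      ∀ k : ℕ, 1 ≤ k → ∃ c : ℤ, (qExpansion 1 G).coeff k = (l : ℂ) ^ r * (c : ℂ)

theorem noConst_of_int {p l r : ℕ} [Fact l.Prime] (h : NoConstInt p l r) : NoConst p l r := by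
  rintro ⟨G, ⟨x, hx0, hxv, hx⟩, hk⟩
  apply h
  have hq : qExpansion 1 (⇑(((x.den : ℂ)) • G)) = (x.den : ℂ) • qExpansion 1 G := by
    rw [FunLike.coe_smul]
    exact ModularForm.qExpansion_smul one_pos (CongruenceSubgroup.one_mem_strictPeriods_Gamma0 p) _ G
  refine ⟨(x.den : ℂ) • G, ⟨x.num, ?_, ?_⟩, ?_⟩
  · -- `l ∤ x.num` since `v_l(x) = 0`
    intro hdiv
    have hnum : x.num.natAbs ≠ 0 := Int.natAbs_ne_zero.mpr (Rat.num_ne_zero.mpr hx0)
    have hl : (l : ℕ) ∣ x.num.natAbs := Int.natCast_dvd.mp hdiv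
    have h1 : 1 ≤ padicValNat l x.num.natAbs := one_le_padicValNat_of_dvd hnum hl
    have h2 : padicValNat l x.den = 0 := by
      have hcop : Nat.Coprime x.num.natAbs x.den := x.reduced
      apply padicValNat.eq_zero_of_not_dvd
      intro hd
      have := Nat.dvd_gcd hl hd
      rw [hcop] at this
      exact (Fact.out : l.Prime).one_lt.ne' (Nat.dvd_one.mp this)
    have : padicValRat l x = (padicValNat l x.num.natAbs : ℤ) - padicValNat l x.den := rfl
    rw [this, h2] at hxv
    omega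
  · rw [hq, PowerSeries.coeff_smul, hx, smul_eq_mul]
    have : (x : ℂ) = (x.num : ℂ) / (x.den : ℂ) := by
      conv_lhs => rw [← Rat.num_div_den x]
      push_cast; rfl
    rw [this]
    have hden : (x.den : ℂ) ≠ 0 := by exact_mod_cast x.den_nz
    field_simp
  · intro k hk1
    obtain ⟨c, hc⟩ := hk k hk1
    refine ⟨x.den * c, ?_⟩
    rw [hq, PowerSeries.coeff_smul, hc, smul_eq_mul]
    push_cast; ring

end Fermat.Agent.S16
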