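/-
# S16, piece (a): the pairing front-end

`T × L → ℤ, (t, f) ↦ a₁(t f)` is a perfect pairing between the Hecke algebra `T` acting on the
lattice `L` of weight-two cusp forms on `Γ₀(p)` with integral `q`-expansion; consequently the
index of the Eisenstein ideal is the congruence modulus between the Eisenstein `q`-series
`∑ σ'(k) q^k` and `L`.
-/
import Fermat.Prelude.Def_CuspForm_HeckeLocal
import Fermat.Prelude.Def_CuspForm_HeckeEvalForms
import Fermat.Prelude.Def_HeckeGalois_EichlerShimura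
import Fermat.Prelude.Def_ModularCurve_ModularUnit
import Fermat.Agent.S49.Finite

set_option autoImplicit false
set_option linter.style.haveILetI false

namespace Fermat.Agent.S16

open ModularCurve CuspForm ModularFormClass CongruenceSubgroup

/-! ### Integral coefficients on the lattice -/

section Lattice

variable {N : ℕ}

/-- The `k`-th `q`-expansion coefficient of an element of the integral lattice, as an integer. -/
noncomputable def coeffZ (f : ↥(intLattice N 2)) (k : ℕ) : ℤ :=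
  Classical.choose ((Fermat.Agent.S49.mem_intLattice_iff f.1).1 f.2 k)

theorem coeffZ_spec (f : ↥(intLattice N 2)) (k : ℕ) :
    qCoeff (f : CuspForm (Gamma0 N) 2) k = (coeffZ f k : ℂ) :=
  Classical.choose_spec ((Fermat.Agent.S49.mem_intLattice_iff f.1).1 f.2 k)

theorem coeffZ_eq_of {f : ↥(intLattice N 2)} {k : ℕ} {c : ℤ}
    (h : qCoeff (f : CuspForm (Gamma0 N) 2) k = (c : ℂ)) : coeffZ f k = c := by
  have := (coeffZ_spec f k).symm.trans h
  exact_mod_cast this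

theorem coeffZ_add (f g : ↥(intLattice N 2)) (k : ℕ) :
    coeffZ (f + g) k = coeffZ f k + coeffZ g k := by
  apply coeffZ_eq_of
  rw [Submodule.coe_add, Fermat.Agent.S49.qCoeff_add, coeffZ_spec, coeffZ_spec]
  push_cast
  rfl

theorem coeffZ_zsmul (c : ℤ) (f : ↥(intLattice N 2)) (k : ℕ) :
    coeffZ (c • f) k = c * coeffZ f k := by
  apply coeffZ_eq_of
  rw [Submodule.coe_smul, Fermat.Agent.S49.qCoeff_zsmul, coeffZ_spec]
  push_cast
  rfl

theorem coeffZ_zero_left (k : ℕ) : coeffZ (0 : ↥(intLattice N 2)) k = 0 := by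
  have := coeffZ_zsmul (0 : ℤ) (0 : ↥(intLattice N 2)) k
  rwa [zero_smul, zero_mul] at this

theorem coeffZ_zero (f : ↥(intLattice N 2)) : coeffZ f 0 = 0 := by
  apply coeffZ_eq_of
  rw [Fermat.Agent.S49.qCoeff_cusp_zero]
  simp

theorem eq_zero_of_coeffZ (f : ↥(intLattice N 2)) (h : ∀ k, 1 ≤ k → coeffZ f k = 0) : f = 0 := by
  apply Subtype.ext
  apply Fermat.Agent.S49.eq_zero_of_qCoeff_eq_zero
  intro k
  rcases Nat.eq_zero_or_pos k with rfl | hk
  · exact Fermat.Agent.S49.qCoeff_cusp_zero _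
  · rw [coeffZ_spec, h k hk]
    simp

/-- The coefficient functional as a linear map. -/
noncomputable def coeffZLin (k : ℕ) : ↥(intLattice N 2) →ₗ[ℤ] ℤ where
  toFun f := coeffZ f k
  map_add' f g := coeffZ_add f g k
  map_smul' c f := by simpa using coeffZ_zsmul c f k

@[simp] theorem coeffZLin_apply (k : ℕ) (f : ↥(intLattice N 2)) : coeffZLin k f = coeffZ f k := rfl

/-- **Saturation**: an element of the lattice all of whose coefficients are divisible by `M` is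
`M` times an element of the lattice. -/
theorem exists_eq_zsmul_of_dvd (g : ↥(intLattice N 2)) (M : ℤ)
    (h : ∀ k, 1 ≤ k → M ∣ coeffZ g k) : ∃ g' : ↥(intLattice N 2), g = M • g' := by
  by_cases hM : M = 0
  · subst hM
    refine ⟨0, ?_⟩
    rw [smul_zero]
    apply eq_zero_of_coeffZ
    intro k hk
    exact zero_dvd_iff.1 (h k hk)
  · have hM' : (M : ℂ) ≠ 0 := by exact_mod_cast hM
    have hmem : ((M : ℂ)⁻¹ • (g : CuspForm (Gamma0 N) 2)) ∈ intLattice N 2 := by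
      rw [Fermat.Agent.S49.mem_intLattice_iff]
      intro k
      rcases Nat.eq_zero_or_pos k with rfl | hk
      · exact ⟨0, by rw [Fermat.Agent.S49.qCoeff_cusp_zero]; simp⟩
      · obtain ⟨c, hc⟩ := h k hk
        refine ⟨c, ?_⟩
        rw [Fermat.Agent.S49.qCoeff_smul, coeffZ_spec, hc]
        push_cast
        field_simp
    refine ⟨⟨_, hmem⟩, ?_⟩
    apply Subtype.ext
    rw [Submodule.coe_smul]
    change (g : CuspForm (Gamma0 N) 2) = M • ((M : ℂ)⁻¹ • (g : CuspForm (Gamma0 N) 2))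
    rw [← Int.cast_smul_eq_zsmul ℂ, smul_smul, mul_inv_cancel₀ hM', one_smul]

end Lattice

/-! ### The Hecke algebra acting on the lattice -/

section Hecke

variable (p : ℕ) [Fact p.Prime]

/-- The map `ℤ[X_ℓ] → T` of the statement of S16. -/
noncomputable abbrev phi : HeckeAlg →+* ↥(heckeLatticeAlgebra p ∅) :=
  (latticeRestrictHom p ∅).toRingHom.comp (heckeEvalForms p 2)

theorem heckeEvalForms_surjective : Function.Surjective (heckeEvalForms p 2) := by
  rintro ⟨t, ht⟩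
  refine Algebra.adjoin_induction (p := fun x hx => ∃ y, heckeEvalForms p 2 y = ⟨x, hx⟩)
    ?_ ?_ ?_ ?_ ht
  · rintro x (⟨ℓ, hℓ, hℓN, -, rfl⟩ | ⟨q, hqN, hq, -, rfl⟩)
    · refine ⟨heckeGen ⟨ℓ, hℓ⟩, ?_⟩
      rw [heckeEvalForms_heckeGen_of_not_dvd (N := p) (k := 2) (ℓ := ⟨ℓ, hℓ⟩) hℓN]
      rfl
    · refine ⟨heckeGen ⟨q, hq⟩, ?_⟩
      rw [heckeEvalForms_heckeGen_of_dvd (N := p) (k := 2) (q := ⟨q, hq⟩) hqN]
      rfl
  · intro r
    exact ⟨MvPolynomial.C r, heckeEvalForms_C p 2 r⟩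
  · rintro x y hx hy ⟨a, ha⟩ ⟨b, hb⟩
    exact ⟨a + b, by rw [map_add, ha, hb]; rfl⟩
  · rintro x y hx hy ⟨a, ha⟩ ⟨b, hb⟩
    exact ⟨a * b, by rw [map_mul, ha, hb]; rfl⟩

theorem phi_surjective : Function.Surjective (phi p) :=
  (latticeRestrictHom_surjective p ∅).comp (heckeEvalForms_surjective p)

/-- The action of `X_ℓ` (`ℓ ≠ p`) on the lattice is `T_ℓ`. -/
theorem coe_phi_heckeGen_of_not_dvd {ℓ : Nat.Primes} (h : ¬ (ℓ : ℕ) ∣ p)
    (f : ↥(intLattice p 2)) :
    (((phi p (heckeGen ℓ)).1 f : ↥(intLattice p 2)) : CuspForm (Gamma0 p) 2) =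
      heckeTLin 2 ℓ.2 h (f : CuspForm (Gamma0 p) 2) := by
  change (((latticeRestrictHom p ∅) (heckeEvalForms p 2 (heckeGen ℓ))).1 f).1 = _
  rw [heckeEvalForms_heckeGen_of_not_dvd (N := p) (k := 2) h]
  rfl

/-- The action of `X_p` on the lattice is `U_p`. -/
theorem coe_phi_heckeGen_of_dvd {q : Nat.Primes} (h : (q : ℕ) ∣ p)
    (f : ↥(intLattice p 2)) :
    (((phi p (heckeGen q)).1 f : ↥(intLattice p 2)) : CuspForm (Gamma0 p) 2) =
      heckeULin 2 h (f : CuspForm (Gamma0 p) 2) := by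
  change (((latticeRestrictHom p ∅) (heckeEvalForms p 2 (heckeGen q))).1 f).1 = _
  rw [heckeEvalForms_heckeGen_of_dvd (N := p) (k := 2) h]
  rfl

theorem coeffZ_phi_heckeGen_of_not_dvd {ℓ : Nat.Primes} (h : ¬ (ℓ : ℕ) ∣ p)
    (f : ↥(intLattice p 2)) (k : ℕ) :
    coeffZ ((phi p (heckeGen ℓ)).1 f) k =
      coeffZ f (k * ℓ) + if (ℓ : ℕ) ∣ k then (ℓ : ℤ) * coeffZ f (k / ℓ) else 0 := by
  apply coeffZ_eq_of
  rw [coe_phi_heckeGen_of_not_dvd p h, Fermat.Agent.S49.qCoeff_heckeTLin, coeffZ_spec]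
  split_ifs
  · rw [coeffZ_spec]; push_cast; rfl
  · push_cast; rfl

theorem coeffZ_phi_heckeGen_of_dvd {q : Nat.Primes} (h : (q : ℕ) ∣ p)
    (f : ↥(intLattice p 2)) (k : ℕ) :
    coeffZ ((phi p (heckeGen q)).1 f) k = coeffZ f (k * q) := by
  apply coeffZ_eq_of
  rw [coe_phi_heckeGen_of_dvd p h, Fermat.Agent.S49.qCoeff_heckeULin q.2 h, coeffZ_spec]

/-- Sequences satisfying the Hecke recursion of the Eisenstein eigensystem of level `p`. -/
structure IsEisSeq (s : ℕ → ℤ) : Prop where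
  one : s 1 = 1
  mul_p : ∀ k, 1 ≤ k → s (k * p) = s k
  mul_prime : ∀ ℓ : ℕ, ℓ.Prime → ℓ ≠ p → ∀ k, 1 ≤ k →
    s (k * ℓ) = (1 + (ℓ : ℤ)) * s k - (if ℓ ∣ k then (ℓ : ℤ) * s (k / ℓ) else 0)

/-- The Eisenstein ideal of `T`. -/
noncomputable abbrev eisI : Ideal ↥(heckeLatticeAlgebra p ∅) :=
  Ideal.map (phi p) (eisensteinIdeal p)

theorem phi_sub_mem (x : HeckeAlg) :
    phi p x - ((MvPolynomial.aeval (eisensteinSystem p) x : ℤ) : ↥(heckeLatticeAlgebra p ∅)) ∈
      eisI p := by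
  have h1 : x - MvPolynomial.C (MvPolynomial.aeval (eisensteinSystem p) x) ∈
      eisensteinIdeal p := by
    unfold eisensteinIdeal
    rw [mem_eigenIdeal_iff, map_sub, MvPolynomial.aeval_C]
    simp
  have h2 := Ideal.mem_map_of_mem (phi p) h1
  rw [map_sub] at h2
  have h3 : phi p (MvPolynomial.C (MvPolynomial.aeval (eisensteinSystem p) x)) =
      ((MvPolynomial.aeval (eisensteinSystem p) x : ℤ) : ↥(heckeLatticeAlgebra p ∅)) := by
    rw [← MvPolynomial.algebraMap_eq, eq_intCast]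
    exact map_intCast (phi p) _
  rw [h3] at h2
  exact h2

theorem phi_heckeGen_sub_mem_of_not_dvd {ℓ : Nat.Primes} (h : ¬ (ℓ : ℕ) ∣ p) :
    phi p (heckeGen ℓ) - ((1 + (ℓ : ℕ) : ℤ) : ↥(heckeLatticeAlgebra p ∅)) ∈ eisI p := by
  have := phi_sub_mem p (heckeGen ℓ)
  rwa [aeval_heckeGen, eisensteinSystem_of_not_dvd h] at this

theorem phi_heckeGen_sub_mem_of_dvd {q : Nat.Primes} (h : (q : ℕ) ∣ p) :
    phi p (heckeGen q) - 1 ∈ eisI p := by
  have := phi_sub_mem p (heckeGen q)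
  rwa [aeval_heckeGen, eisensteinSystem_of_dvd h, Int.cast_one] at this

theorem mul_apply_coe (t u : ↥(heckeLatticeAlgebra p ∅)) (f : ↥(intLattice p 2)) :
    (t * u).1 f = t.1 (u.1 f) := rfl

theorem sub_apply_coe (t u : ↥(heckeLatticeAlgebra p ∅)) (f : ↥(intLattice p 2)) :
    (t - u).1 f = t.1 f - u.1 f := rfl

theorem add_apply_coe (t u : ↥(heckeLatticeAlgebra p ∅)) (f : ↥(intLattice p 2)) :
    (t + u).1 f = t.1 f + u.1 f := rfl

theorem intCast_apply_coe (z : ℤ) (f : ↥(intLattice p 2)) :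
    ((z : ℤ) : ↥(heckeLatticeAlgebra p ∅)).1 f = z • f := by
  have h : (((z : ℤ) : ↥(heckeLatticeAlgebra p ∅)) : Module.End ℤ ↥(intLattice p 2)) =
      (z : Module.End ℤ ↥(intLattice p 2)) := SubringClass.coe_intCast _ z
  rw [h]
  simp

/-- **Hecke operators `t_k`**: `a_k = a₁ ∘ t_k` on the lattice, and `t_k ≡ s(k)` modulo the
Eisenstein ideal. -/
theorem exists_hecke {s : ℕ → ℤ} (hs : IsEisSeq p s) :
    ∀ k : ℕ, 1 ≤ k → ∃ t : ↥(heckeLatticeAlgebra p ∅),
      (∀ f : ↥(intLattice p 2), coeffZ (t.1 f) 1 = coeffZ f k) ∧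
        t - ((s k : ℤ) : ↥(heckeLatticeAlgebra p ∅)) ∈ eisI p := by
  intro k
  induction k using Nat.strong_induction_on with
  | _ k ih =>
    intro hk
    rcases Nat.eq_or_lt_of_le hk with h1 | h1
    · subst h1
      refine ⟨1, fun f => rfl, ?_⟩
      rw [hs.one, Int.cast_one, sub_self]
      exact Ideal.zero_mem _
    · -- `k = k' * ℓ` with `ℓ` prime
      have hk1 : k ≠ 1 := by omega
      set ℓ := k.minFac with hℓdef
      have hℓ : ℓ.Prime := Nat.minFac_prime hk1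
      obtain ⟨k', hk'⟩ : ∃ k', k = k' * ℓ := ⟨k / ℓ, (Nat.div_mul_cancel (Nat.minFac_dvd k)).symm⟩
      have hk'pos : 1 ≤ k' := by
        rcases Nat.eq_zero_or_pos k' with h0 | h0
        · rw [h0, zero_mul] at hk'; omega
        · exact h0
      have hk'lt : k' < k := by
        rw [hk']
        have := hℓ.two_le
        nlinarith
      obtain ⟨t', ht'1, ht'2⟩ := ih k' hk'lt hk'pos
      by_cases hℓp : ℓ ∣ p
      · -- `ℓ = p`
        have hℓeq : ℓ = p := (Nat.prime_dvd_prime_iff_eq hℓ (Fact.out : p.Prime)).1 hℓp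
        refine ⟨t' * phi p (heckeGen ⟨ℓ, hℓ⟩), fun f => ?_, ?_⟩
        · rw [mul_apply_coe, ht'1, coeffZ_phi_heckeGen_of_dvd p (q := ⟨ℓ, hℓ⟩) hℓp, hk']
        · have e : s k = s k' := by rw [hk', hℓeq]; exact hs.mul_p k' hk'pos
          rw [e]
          have h2 := phi_heckeGen_sub_mem_of_dvd p (q := ⟨ℓ, hℓ⟩) hℓp
          have e2 : t' * phi p (heckeGen ⟨ℓ, hℓ⟩) - ((s k' : ℤ) : ↥(heckeLatticeAlgebra p ∅)) =
              t' * (phi p (heckeGen ⟨ℓ, hℓ⟩) - 1) +
                (t' - ((s k' : ℤ) : ↥(heckeLatticeAlgebra p ∅))) := by ring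
          rw [e2]
          exact Ideal.add_mem _ (Ideal.mul_mem_left _ _ h2) ht'2
      · have hℓne : ℓ ≠ p := fun h => hℓp (h ▸ dvd_rfl)
        have h2 := phi_heckeGen_sub_mem_of_not_dvd p (ℓ := ⟨ℓ, hℓ⟩) hℓp
        by_cases hdvd : ℓ ∣ k'
        · -- `ℓ ∣ k'`
          obtain ⟨k'', hk''⟩ : ∃ k'', k' = k'' * ℓ :=
            ⟨k' / ℓ, (Nat.div_mul_cancel hdvd).symm⟩
          have hk''pos : 1 ≤ k'' := by
            rcases Nat.eq_zero_or_pos k'' with h0 | h0
            · rw [h0, zero_mul] at hk''; omega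
            · exact h0
          have hk''lt : k'' < k := by
            have : k'' < k' := by
              rw [hk'']
              have := hℓ.two_le
              nlinarith
            omega
          have hdiv : k' / ℓ = k'' := by
            rw [hk'']; exact Nat.mul_div_cancel _ hℓ.pos
          obtain ⟨t'', ht''1, ht''2⟩ := ih k'' hk''lt hk''pos
          refine ⟨t' * phi p (heckeGen ⟨ℓ, hℓ⟩) - ((ℓ : ℤ) : ↥(heckeLatticeAlgebra p ∅)) * t'',
            fun f => ?_, ?_⟩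
          · have e1 : (t' * phi p (heckeGen ⟨ℓ, hℓ⟩) -
                ((ℓ : ℤ) : ↥(heckeLatticeAlgebra p ∅)) * t'').1 f =
                t'.1 ((phi p (heckeGen ⟨ℓ, hℓ⟩)).1 f) - (ℓ : ℤ) • t''.1 f := by
              rw [sub_apply_coe, mul_apply_coe, mul_apply_coe, intCast_apply_coe]
            rw [e1, sub_eq_add_neg, coeffZ_add, ← neg_smul, coeffZ_zsmul, ht'1, ht''1,
              coeffZ_phi_heckeGen_of_not_dvd p (ℓ := ⟨ℓ, hℓ⟩) hℓp, if_pos hdvd, hdiv, hk']
            ring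
          · have e : s k = (1 + (ℓ : ℤ)) * s k' - (ℓ : ℤ) * s k'' := by
              rw [hk', hs.mul_prime ℓ hℓ hℓne k' hk'pos, if_pos hdvd, hdiv]
            rw [e]
            have e2 : t' * phi p (heckeGen ⟨ℓ, hℓ⟩) -
                ((ℓ : ℤ) : ↥(heckeLatticeAlgebra p ∅)) * t'' -
                (((1 + (ℓ : ℤ)) * s k' - (ℓ : ℤ) * s k'' : ℤ) : ↥(heckeLatticeAlgebra p ∅)) =
                t' * (phi p (heckeGen ⟨ℓ, hℓ⟩) - ((1 + (ℓ : ℕ) : ℤ) : ↥(heckeLatticeAlgebra p ∅))) +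
                  ((1 + (ℓ : ℕ) : ℤ) : ↥(heckeLatticeAlgebra p ∅)) *
                    (t' - ((s k' : ℤ) : ↥(heckeLatticeAlgebra p ∅))) -
                  ((ℓ : ℤ) : ↥(heckeLatticeAlgebra p ∅)) *
                    (t'' - ((s k'' : ℤ) : ↥(heckeLatticeAlgebra p ∅))) := by
              push_cast
              ring
            rw [e2]
            exact Ideal.sub_mem _ (Ideal.add_mem _ (Ideal.mul_mem_left _ _ h2)
              (Ideal.mul_mem_left _ _ ht'2)) (Ideal.mul_mem_left _ _ ht''2)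
        · -- `ℓ ∤ k'`
          refine ⟨t' * phi p (heckeGen ⟨ℓ, hℓ⟩), fun f => ?_, ?_⟩
          · rw [mul_apply_coe, ht'1, coeffZ_phi_heckeGen_of_not_dvd p (ℓ := ⟨ℓ, hℓ⟩) hℓp,
              if_neg hdvd, add_zero, hk']
          · have e : s k = (1 + (ℓ : ℤ)) * s k' := by
              rw [hk', hs.mul_prime ℓ hℓ hℓne k' hk'pos, if_neg hdvd, sub_zero]
            rw [e]
            have e2 : t' * phi p (heckeGen ⟨ℓ, hℓ⟩) -
                (((1 + (ℓ : ℤ)) * s k' : ℤ) : ↥(heckeLatticeAlgebra p ∅)) =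
                t' * (phi p (heckeGen ⟨ℓ, hℓ⟩) - ((1 + (ℓ : ℕ) : ℤ) : ↥(heckeLatticeAlgebra p ∅))) +
                  ((1 + (ℓ : ℕ) : ℤ) : ↥(heckeLatticeAlgebra p ∅)) *
                    (t' - ((s k' : ℤ) : ↥(heckeLatticeAlgebra p ∅))) := by
              push_cast
              ring
            rw [e2]
            exact Ideal.add_mem _ (Ideal.mul_mem_left _ _ h2) (Ideal.mul_mem_left _ _ ht'2)

end Hecke

/-! ### The arithmetic function `σ'` -/

section Sigma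

/-- `σ'(k)`: the sum of the divisors of `k` prime to `p`. -/
def sigmaP (p k : ℕ) : ℤ := ∑ d ∈ k.divisors.filter (fun d => ¬ p ∣ d), (d : ℤ)

theorem sigmaP_one (p : ℕ) (hp : p.Prime) : sigmaP p 1 = 1 := by
  unfold sigmaP
  have : (Nat.divisors 1).filter (fun d => ¬ p ∣ d) = {1} := by
    rw [Nat.divisors_one, Finset.filter_singleton, if_pos]
    exact fun h => hp.one_lt.ne' (Nat.dvd_one.1 h)
  rw [this]
  simp

theorem sigmaP_mul_self (p : ℕ) (hp : p.Prime) (k : ℕ) (hk : 1 ≤ k) :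
    sigmaP p (k * p) = sigmaP p k := by
  unfold sigmaP
  congr 1
  ext d
  simp only [Finset.mem_filter, Nat.mem_divisors]
  constructor
  · rintro ⟨⟨h1, h2⟩, h3⟩
    refine ⟨⟨?_, by omega⟩, h3⟩
    have hcop : Nat.Coprime d p := (Nat.Coprime.symm ((Nat.Prime.coprime_iff_not_dvd hp).2 h3))
    exact hcop.dvd_of_dvd_mul_right h1
  · rintro ⟨⟨h1, h2⟩, h3⟩
    exact ⟨⟨Dvd.dvd.mul_right h1 p, Nat.mul_ne_zero h2 hp.ne_zero⟩, h3⟩

theorem sigmaP_mul_prime (p : ℕ) (hp : p.Prime) (ℓ : ℕ) (hℓ : ℓ.Prime) (hne : ℓ ≠ p)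
    (k : ℕ) (hk : 1 ≤ k) :
    sigmaP p (k * ℓ) = (1 + (ℓ : ℤ)) * sigmaP p k -
      (if ℓ ∣ k then (ℓ : ℤ) * sigmaP p (k / ℓ) else 0) := by
  classical
  set D : ℕ → Finset ℕ := fun n => n.divisors.filter (fun d => ¬ p ∣ d) with hD
  have hpl : ∀ d, p ∣ d * ℓ ↔ p ∣ d := by
    intro d
    constructor
    · intro h
      rcases (Nat.Prime.dvd_mul hp).1 h with h | h
      · exact h
      · exact absurd ((Nat.prime_dvd_prime_iff_eq hp hℓ).1 h).symm hne
    · intro h; exact Dvd.dvd.mul_right h ℓ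
  have hinj : Function.Injective (fun d : ℕ => d * ℓ) := fun a b h =>
    Nat.eq_of_mul_eq_mul_right hℓ.pos h
  -- the union
  have hU : D (k * ℓ) = D k ∪ (D k).image (fun d => d * ℓ) := by
    ext d
    simp only [hD, Finset.mem_filter, Nat.mem_divisors, Finset.mem_union, Finset.mem_image]
    constructor
    · rintro ⟨⟨h1, h2⟩, h3⟩
      by_cases hl : ℓ ∣ d
      · obtain ⟨d', rfl⟩ := hl
        right
        refine ⟨d', ⟨⟨?_, by omega⟩, ?_⟩, by ring⟩
        · have : d' * ℓ ∣ k * ℓ := by rwa [mul_comm d' ℓ]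
          exact Nat.dvd_of_mul_dvd_mul_right hℓ.pos this
        · intro h; exact h3 (Dvd.dvd.mul_left h ℓ)
      · left
        refine ⟨⟨?_, by omega⟩, h3⟩
        have hcop : Nat.Coprime d ℓ := (Nat.Coprime.symm ((Nat.Prime.coprime_iff_not_dvd hℓ).2 hl))
        exact hcop.dvd_of_dvd_mul_right h1
    · rintro (⟨⟨h1, h2⟩, h3⟩ | ⟨d', ⟨⟨h1, h2⟩, h3⟩, rfl⟩)
      · exact ⟨⟨Dvd.dvd.mul_right h1 ℓ, Nat.mul_ne_zero h2 hℓ.ne_zero⟩, h3⟩
      · exact ⟨⟨Nat.mul_dvd_mul_right h1 ℓ, Nat.mul_ne_zero h2 hℓ.ne_zero⟩, fun h => h3 ((hpl d').1 h)⟩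
  -- the intersection
  have hI : D k ∩ (D k).image (fun d => d * ℓ) =
      if ℓ ∣ k then (D (k / ℓ)).image (fun d => d * ℓ) else ∅ := by
    split_ifs with hlk
    · obtain ⟨k', rfl⟩ := hlk
      have hk' : k' ≠ 0 := by rintro rfl; omega
      rw [Nat.mul_div_cancel_left _ hℓ.pos]
      ext d
      simp only [hD, Finset.mem_inter, Finset.mem_filter, Nat.mem_divisors, Finset.mem_image]
      constructor
      · rintro ⟨⟨⟨h1, h2⟩, h3⟩, ⟨d', ⟨⟨h4, h5⟩, h6⟩, rfl⟩⟩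
        refine ⟨d', ⟨⟨?_, hk'⟩, h6⟩, rfl⟩
        have : d' * ℓ ∣ k' * ℓ := by rwa [mul_comm k' ℓ]
        exact Nat.dvd_of_mul_dvd_mul_right hℓ.pos this
      · rintro ⟨d', ⟨⟨h4, h5⟩, h6⟩, rfl⟩
        have h2 : ℓ * k' ≠ 0 := Nat.mul_ne_zero hℓ.ne_zero hk'
        refine ⟨⟨⟨?_, h2⟩, fun h => h6 ((hpl d').1 h)⟩, d', ⟨⟨Dvd.dvd.mul_left h4 ℓ, h2⟩, h6⟩, rfl⟩
        rw [mul_comm ℓ k']; exact Nat.mul_dvd_mul_right h4 ℓ
    · ext d
      simp only [hD, Finset.mem_inter, Finset.mem_filter, Nat.mem_divisors, Finset.mem_image,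
        Finset.notMem_empty, iff_false]
      rintro ⟨⟨⟨h1, h2⟩, h3⟩, ⟨d', _, rfl⟩⟩
      exact hlk (Dvd.dvd.trans (Dvd.intro_left d' rfl) h1)
  have hsum : ∀ n, ∑ d ∈ (D n).image (fun d => d * ℓ), (d : ℤ) = (ℓ : ℤ) * sigmaP p n := by
    intro n
    rw [Finset.sum_image (fun a _ b _ h => hinj h)]
    unfold sigmaP
    rw [Finset.mul_sum]
    apply Finset.sum_congr rfl
    intro d _
    push_cast
    ring
  have key := Finset.sum_union_inter (s₁ := D k) (s₂ := (D k).image (fun d => d * ℓ))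
    (f := fun d => (d : ℤ))
  rw [← hU, hI, hsum k] at key
  have e1 : sigmaP p (k * ℓ) = ∑ d ∈ D (k * ℓ), (d : ℤ) := rfl
  have e2 : sigmaP p k = ∑ d ∈ D k, (d : ℤ) := rfl
  rw [← e1, ← e2] at key
  split_ifs at key ⊢ with hlk
  · rw [hsum (k / ℓ)] at key
    linarith
  · rw [Finset.sum_empty] at key
    linarith

end Sigma

theorem isEisSeq_sigmaP (p : ℕ) [Fact p.Prime] : IsEisSeq p (sigmaP p) where
  one := sigmaP_one p Fact.out
  mul_p := sigmaP_mul_self p Fact.out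
  mul_prime ℓ hℓ hne k hk := sigmaP_mul_prime p Fact.out ℓ hℓ hne k hk

/-! ### Perfectness of the pairing -/

theorem exists_nsmul_mem_of_finrank_eq {M : Type*} [AddCommGroup M] [inst : Module ℤ M]
    [Module.Free ℤ M] [Module.Finite ℤ M] (N : Submodule ℤ M)
    (h : Module.finrank ℤ N = Module.finrank ℤ M) (x : M) : ∃ n : ℕ, n ≠ 0 ∧ n • x ∈ N := by
  obtain rfl : inst = AddCommGroup.toIntModule M := Subsingleton.elim _ _
  have hfin : Finite (M ⧸ N) := Submodule.finiteQuotientOfFreeOfRankEq N h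
  refine ⟨Nat.card (M ⧸ N), Nat.card_pos.ne', ?_⟩
  rw [← Submodule.Quotient.mk_eq_zero, Submodule.Quotient.mk_smul]
  exact card_nsmul_eq_zero'

section Perfect

variable (p : ℕ) [Fact p.Prime]

theorem smul_apply_coe (c : ℤ) (t : ↥(heckeLatticeAlgebra p ∅)) (f : ↥(intLattice p 2)) :
    (c • t).1 f = c • t.1 f := rfl

/-- The pairing `T × L → ℤ`, `(t, f) ↦ a₁(t f)`. -/
noncomputable def pairT : ↥(heckeLatticeAlgebra p ∅) →ₗ[ℤ] (↥(intLattice p 2) →ₗ[ℤ] ℤ) :=
  LinearMap.mk₂ ℤ (fun t f => coeffZ (t.1 f) 1)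
    (fun t t' f => by rw [add_apply_coe, coeffZ_add])
    (fun c t f => by rw [smul_apply_coe, coeffZ_zsmul, smul_eq_mul])
    (fun t f f' => by rw [map_add, coeffZ_add])
    (fun c t f => by rw [map_smul, coeffZ_zsmul, smul_eq_mul])

@[simp] theorem pairT_apply (t : ↥(heckeLatticeAlgebra p ∅)) (f : ↥(intLattice p 2)) :
    pairT p t f = coeffZ (t.1 f) 1 := rfl

/-- The operators `t_k` with `a_k = a₁ ∘ t_k`. -/
theorem exists_hecke' : ∀ k : ℕ, 1 ≤ k → ∃ t : ↥(heckeLatticeAlgebra p ∅),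
    ∀ f : ↥(intLattice p 2), coeffZ (t.1 f) 1 = coeffZ f k := by
  intro k hk
  obtain ⟨t, ht, -⟩ := exists_hecke p (isEisSeq_sigmaP p) k hk
  exact ⟨t, ht⟩

theorem pairT_flip_injective : Function.Injective (pairT p).flip := by
  rw [← LinearMap.ker_eq_bot, LinearMap.ker_eq_bot']
  intro f hf
  apply eq_zero_of_coeffZ
  intro k hk
  obtain ⟨t, ht⟩ := exists_hecke' p k hk
  rw [← ht f]
  exact LinearMap.congr_fun hf t

theorem pairT_injective : Function.Injective (pairT p) := by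
  rw [← LinearMap.ker_eq_bot, LinearMap.ker_eq_bot']
  intro t ht
  apply Subtype.ext
  apply LinearMap.ext
  intro f
  change t.1 f = 0
  apply eq_zero_of_coeffZ
  intro k hk
  obtain ⟨u, hu⟩ := exists_hecke' p k hk
  rw [← hu (t.1 f), ← mul_apply_coe, mul_comm, mul_apply_coe]
  exact LinearMap.congr_fun ht (u.1 f)

theorem finrank_eq : Module.finrank ℤ ↥(heckeLatticeAlgebra p ∅) =
    Module.finrank ℤ ↥(intLattice p 2) := by
  haveI := intLattice.moduleFinite p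
  haveI := intLattice.moduleFree p
  have h1 := LinearMap.finrank_le_finrank_of_injective (pairT_injective p)
  have h2 := LinearMap.finrank_le_finrank_of_injective (pairT_flip_injective p)
  rw [Module.finrank_linearMap, Module.finrank_self, mul_one] at h1 h2
  exact le_antisymm h1 h2

/-- **Perfectness**: every linear form on `T` is `t ↦ a₁(t f)` for a unique `f ∈ L`. -/
theorem exists_pairT_eq (ψ : ↥(heckeLatticeAlgebra p ∅) →ₗ[ℤ] ℤ) :
    ∃ f : ↥(intLattice p 2), ∀ t : ↥(heckeLatticeAlgebra p ∅), coeffZ (t.1 f) 1 = ψ t := by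
  haveI := intLattice.moduleFinite p
  haveI := intLattice.moduleFree p
  obtain ⟨M, hM0, hmem⟩ : ∃ M : ℕ, M ≠ 0 ∧ M • ψ ∈ LinearMap.range (pairT p).flip := by
    have hrank : Module.finrank ℤ (LinearMap.range (pairT p).flip) =
        Module.finrank ℤ (↥(heckeLatticeAlgebra p ∅) →ₗ[ℤ] ℤ) := by
      rw [LinearMap.finrank_range_of_inj (pairT_flip_injective p), Module.finrank_linearMap,
        Module.finrank_self, mul_one, finrank_eq]
    exact exists_nsmul_mem_of_finrank_eq _ hrank ψ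
  obtain ⟨g, hg⟩ := hmem
  -- all coefficients of `g` are divisible by `M`
  have hdiv : ∀ k, 1 ≤ k → (M : ℤ) ∣ coeffZ g k := by
    intro k hk
    obtain ⟨t, ht⟩ := exists_hecke' p k hk
    rw [← ht g]
    have := LinearMap.congr_fun hg t
    change coeffZ (t.1 g) 1 = (M • ψ) t at this
    rw [this, LinearMap.smul_apply, nsmul_eq_mul]
    exact Dvd.intro _ rfl
  obtain ⟨g', rfl⟩ := exists_eq_zsmul_of_dvd g (M : ℤ) hdiv
  refine ⟨g', fun t => ?_⟩
  have := LinearMap.congr_fun hg t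
  change coeffZ (t.1 ((M : ℤ) • g')) 1 = (M • ψ) t at this
  rw [map_smul, coeffZ_zsmul, LinearMap.smul_apply, nsmul_eq_mul] at this
  have hM' : (M : ℤ) ≠ 0 := by exact_mod_cast hM0
  exact mul_left_cancel₀ hM' this

end Perfect

/-! ### The index of the Eisenstein ideal -/

section Cyclic

variable {A : Type*} [CommRing A] (I : Ideal A)

/-- If `ℤ → A/I` is onto, an integer lies in `I` only if `#(A/I)` divides it. -/
theorem natCard_dvd_of_intCast_mem_aux (h : ∀ a : A, ∃ z : ℤ, a - (z : A) ∈ I) (z : ℤ)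
    (hz : (z : A) ∈ I) : (Nat.card (A ⧸ I) : ℤ) ∣ z := by
  have hgen : ∀ q : A ⧸ I, q ∈ AddSubgroup.zmultiples (1 : A ⧸ I) := by
    intro q
    obtain ⟨t, rfl⟩ := Ideal.Quotient.mk_surjective q
    obtain ⟨c, hc⟩ := h t
    rw [AddSubgroup.mem_zmultiples_iff]
    refine ⟨c, ?_⟩
    rw [zsmul_one, ← map_intCast (Ideal.Quotient.mk I) c]
    exact ((Ideal.Quotient.mk_eq_mk_iff_sub_mem _ _).2 hc).symm
  rw [← addOrderOf_eq_card_of_forall_mem_zmultiples hgen, addOrderOf_dvd_iff_zsmul_eq_zero,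
    zsmul_one, ← map_intCast (Ideal.Quotient.mk I) z]
  exact Ideal.Quotient.eq_zero_iff_mem.2 hz

theorem natCard_mem_aux : (((Nat.card (A ⧸ I) : ℕ) : ℤ) : A) ∈ I := by
  rw [← Ideal.Quotient.eq_zero_iff_mem, map_intCast, Int.cast_natCast, ← nsmul_one]
  exact card_nsmul_eq_zero'

/-- A `ℤ`-linear lift `A → ℤ` of `A → A/I = ℤ/m`. -/
theorem exists_linear_lift_aux {ι : Type*} (b : Module.Basis ι ℤ A)
    (h : ∀ a : A, ∃ z : ℤ, a - (z : A) ∈ I) :
    ∃ ψ : A →ₗ[ℤ] ℤ, ∀ a : A, a - ((ψ a : ℤ) : A) ∈ I := by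
  classical
  choose z hz using fun i => h (b i)
  refine ⟨b.constr ℤ z, ?_⟩
  intro t
  have ht : t ∈ Submodule.span ℤ (Set.range b) := by rw [b.span_eq]; exact Submodule.mem_top
  induction ht using Submodule.span_induction with
  | mem x hx =>
    obtain ⟨i, rfl⟩ := hx
    rw [Module.Basis.constr_basis]
    exact hz i
  | zero =>
    rw [map_zero, Int.cast_zero, sub_zero]
    exact I.zero_mem
  | add x y _ _ hx hy =>
    rw [map_add, Int.cast_add, add_sub_add_comm]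
    exact I.add_mem hx hy
  | smul c x _ hx =>
    rw [map_smul, smul_eq_mul, Int.cast_mul, zsmul_eq_mul, ← mul_sub]
    exact I.mul_mem_left _ hx

end Cyclic

section Main

variable (p : ℕ) [Fact p.Prime]

/-- `ℤ → T/I` is onto. -/
theorem exists_int_sub_mem (t : ↥(heckeLatticeAlgebra p ∅)) :
    ∃ z : ℤ, t - ((z : ℤ) : ↥(heckeLatticeAlgebra p ∅)) ∈ eisI p := by
  obtain ⟨x, rfl⟩ := phi_surjective p t
  exact ⟨_, phi_sub_mem p x⟩

theorem exists_linear_lift : ∃ ψ : ↥(heckeLatticeAlgebra p ∅) →ₗ[ℤ] ℤ,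
    ∀ t : ↥(heckeLatticeAlgebra p ∅),
      t - ((ψ t : ℤ) : ↥(heckeLatticeAlgebra p ∅)) ∈ eisI p :=
  exists_linear_lift_aux (eisI p) (Module.Free.chooseBasis ℤ ↥(heckeLatticeAlgebra p ∅))
    (exists_int_sub_mem p)

theorem natCard_dvd_of_intCast_mem (z : ℤ)
    (hz : ((z : ℤ) : ↥(heckeLatticeAlgebra p ∅)) ∈ eisI p) :
    (Nat.card (↥(heckeLatticeAlgebra p ∅) ⧸ eisI p) : ℤ) ∣ z :=
  natCard_dvd_of_intCast_mem_aux (eisI p) (exists_int_sub_mem p) z hz

theorem natCard_mem :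
    (((Nat.card (↥(heckeLatticeAlgebra p ∅) ⧸ eisI p) : ℕ) : ℤ) : ↥(heckeLatticeAlgebra p ∅)) ∈
      eisI p :=
  natCard_mem_aux (eisI p)

theorem phi_C (z : ℤ) : phi p (MvPolynomial.C z) = ((z : ℤ) : ↥(heckeLatticeAlgebra p ∅)) := by
  rw [← MvPolynomial.algebraMap_eq, eq_intCast]
  exact map_intCast (phi p) _

/-- If `f ≡ s` coefficientwise modulo `n`, then `φ(x) f ≡ ε(x) s` for every `x`. -/
theorem coeffZ_phi_modEq {s : ℕ → ℤ} (hs : IsEisSeq p s) (n : ℕ) (x : HeckeAlg) :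
    ∀ (f : ↥(intLattice p 2)) (c : ℤ), (∀ k, 1 ≤ k → coeffZ f k ≡ c * s k [ZMOD n]) →
      ∀ k, 1 ≤ k → coeffZ ((phi p x).1 f) k ≡
        c * MvPolynomial.aeval (eisensteinSystem p) x * s k [ZMOD n] := by
  induction x using MvPolynomial.induction_on with
  | C z =>
    intro f c hf k hk
    rw [phi_C, intCast_apply_coe, coeffZ_zsmul, MvPolynomial.aeval_C]
    have : (algebraMap ℤ ℤ) z = z := rfl
    rw [this]
    have h := (hf k hk).mul_left z
    have e : c * z * s k = z * (c * s k) := by ring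
    rw [e]
    exact h
  | add x y hx hy =>
    intro f c hf k hk
    rw [map_add, add_apply_coe, coeffZ_add, map_add]
    have e : c * (MvPolynomial.aeval (eisensteinSystem p) x +
        MvPolynomial.aeval (eisensteinSystem p) y) * s k =
        c * MvPolynomial.aeval (eisensteinSystem p) x * s k +
          c * MvPolynomial.aeval (eisensteinSystem p) y * s k := by ring
    rw [e]
    exact (hx f c hf k hk).add (hy f c hf k hk)
  | mul_X x ℓ hx =>
    intro f c hf k hk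
    have hg := hx f c hf
    rw [map_mul, mul_comm, mul_apply_coe, map_mul, MvPolynomial.aeval_X]
    set g := (phi p x).1 f with hgdef
    set e := MvPolynomial.aeval (eisensteinSystem p) x with hedef
    by_cases hℓp : (ℓ : ℕ) ∣ p
    · have hℓeq : (ℓ : ℕ) = p := (Nat.prime_dvd_prime_iff_eq ℓ.2 (Fact.out : p.Prime)).1 hℓp
      have := coeffZ_phi_heckeGen_of_dvd p (q := ℓ) hℓp g k
      unfold heckeGen at this
      rw [this, eisensteinSystem_of_dvd hℓp, mul_one, hℓeq]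
      have h1 := hg (k * p) (Nat.mul_pos hk (Fact.out : p.Prime).pos)
      rw [hs.mul_p k hk] at h1
      exact h1
    · have hℓne : (ℓ : ℕ) ≠ p := fun h => hℓp (h ▸ dvd_rfl)
      have := coeffZ_phi_heckeGen_of_not_dvd p (ℓ := ℓ) hℓp g k
      unfold heckeGen at this
      rw [this, eisensteinSystem_of_not_dvd hℓp]
      have h1 := hg (k * ℓ) (Nat.mul_pos hk ℓ.2.pos)
      rw [hs.mul_prime ℓ ℓ.2 hℓne k hk] at h1
      split_ifs at h1 ⊢ with hdvd
      · have hk2 : 1 ≤ k / ℓ := Nat.div_pos (Nat.le_of_dvd hk hdvd) ℓ.2.pos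
        have h2 := (hg (k / ℓ) hk2).mul_left (ℓ : ℤ)
        have h3 := h1.add h2
        have e3 : c * e * ((1 + (ℓ : ℤ)) * s k - (ℓ : ℤ) * s (k / ℓ)) + (ℓ : ℤ) * (c * e * s (k / ℓ)) =
            c * (e * (1 + ((ℓ : ℕ) : ℤ))) * s k := by ring
        rw [e3] at h3
        exact h3
      · rw [add_zero]
        rw [sub_zero] at h1
        have e3 : c * e * ((1 + (ℓ : ℤ)) * s k) = c * (e * (1 + ((ℓ : ℕ) : ℤ))) * s k := by ring
        rw [e3] at h1
        exact h1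

/-- A cusp form in `L` congruent to `∑ σ'(k) q^k` modulo `M`. -/
def Cong (p M : ℕ) : Prop :=
  ∃ f ∈ CuspForm.intLattice p 2, ∀ k : ℕ, 1 ≤ k →
    ∃ c : ℤ, ModularFormClass.qCoeff f k = (c : ℂ) ∧ c ≡ sigmaP p k [ZMOD M]

theorem cong_iff (M : ℕ) : Cong p M ↔
    ∃ f : ↥(intLattice p 2), ∀ k, 1 ≤ k → coeffZ f k ≡ sigmaP p k [ZMOD M] := by
  constructor
  · rintro ⟨f, hf, h⟩
    refine ⟨⟨f, hf⟩, fun k hk => ?_⟩
    obtain ⟨c, hc, hc'⟩ := h k hk
    rw [coeffZ_eq_of (f := ⟨f, hf⟩) hc]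
    exact hc'
  · rintro ⟨f, h⟩
    exact ⟨f.1, f.2, fun k hk => ⟨coeffZ f k, coeffZ_spec f k, h k hk⟩⟩

/-- **The pairing front-end of S16**: the index of the Eisenstein ideal in the Hecke algebra of
`S₂(Γ₀(p), ℤ)` is the largest modulus of a congruence between the Eisenstein `q`-series
`∑ σ'(k) q^k` and a cusp form with integral coefficients. -/
theorem card_quotient_eq_of_cong (n : ℕ) (hLB : Cong p n) (hUB : ∀ M : ℕ, Cong p M → M ∣ n) :
    Nat.card (↥(heckeLatticeAlgebra p ∅) ⧸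
        Ideal.map ((latticeRestrictHom p ∅).toRingHom.comp (heckeEvalForms p 2))
          (eisensteinIdeal p)) = n := by
  change Nat.card (↥(heckeLatticeAlgebra p ∅) ⧸ eisI p) = n
  have hs := isEisSeq_sigmaP p
  apply Nat.dvd_antisymm
  · apply hUB
    rw [cong_iff]
    obtain ⟨ψ, hψ⟩ := exists_linear_lift p
    obtain ⟨f, hf⟩ := exists_pairT_eq p ψ
    refine ⟨f, fun k hk => ?_⟩
    obtain ⟨t, ht1, ht2⟩ := exists_hecke p hs k hk
    rw [← ht1 f, hf t]
    have h3 : (((sigmaP p k - ψ t : ℤ)) : ↥(heckeLatticeAlgebra p ∅)) ∈ eisI p := by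
      have := (eisI p).sub_mem (hψ t) ht2
      rw [sub_sub_sub_cancel_left] at this
      rw [Int.cast_sub]
      exact this
    exact (Int.modEq_iff_dvd).2 (natCard_dvd_of_intCast_mem p _ h3)
  · rw [cong_iff] at hLB
    obtain ⟨f, hf⟩ := hLB
    have hm := natCard_mem p
    obtain ⟨x, hx, hxm⟩ := (Ideal.mem_map_iff_of_surjective (phi p) (phi_surjective p)).1 hm
    have hx0 : MvPolynomial.aeval (eisensteinSystem p) x = 0 := (mem_eigenIdeal_iff _ _).1 hx
    have key := coeffZ_phi_modEq p hs n x f 1 (fun k hk => by rw [one_mul]; exact hf k hk) 1 le_rfl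
    rw [hxm, intCast_apply_coe, coeffZ_zsmul, hx0, mul_zero, zero_mul] at key
    have h1 := hf 1 le_rfl
    rw [hs.one] at h1
    have h2 := h1.mul_left ((Nat.card (↥(heckeLatticeAlgebra p ∅) ⧸ eisI p) : ℕ) : ℤ)
    rw [mul_one] at h2
    have h3 := h2.symm.trans key
    exact Int.natCast_dvd_natCast.1 (Int.modEq_zero_iff_dvd.1 h3)

end Main

end Fermat.Agent.S16
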