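import Mathlib
import Fermat.Agent.S16.LevelOneIntegral

/-!
# The local ring `ℤ_(l) ⊂ ℂ`, reduction mod `l`, and level one forms mod `l`  (T16, piece R_l)

* `Zl l : Subring ℂ`: rational numbers with denominator prime to the prime `l`.
* `red l : Zl l →+* ZMod l`: reduction mod `l` (`red_eq_of_repr`, `red_surjective`,
  `red_eq_zero_iff`).
* `exists_mvPolynomial_mod`: a level one form with `l`-integral `q`-expansion reduces to an
  isobaric polynomial in `E₄, E₆, Δ` over `ZMod l`.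
* `red_coeff_eq_zero_of_first`: Sturm bound mod `l` in level one.
-/

set_option autoImplicit false

open UpperHalfPlane ModularForm ModularFormClass
open scoped MatrixGroups ModularForm Manifold

namespace Fermat.Agent.S16.Rl

open Fermat.Agent.S23 Fermat.Agent.S16.L1

variable (l : ℕ) [hl : Fact l.Prime]

theorem prime_int : Prime (l : ℤ) := Nat.prime_iff_prime_int.mp hl.out

/-- `ℤ_(l)` as a subring of `ℂ`. -/
def Zl : Subring ℂ where
  carrier := {x | ∃ a b : ℤ, ¬ (l : ℤ) ∣ b ∧ x = (a : ℂ) / (b : ℂ)}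
  mul_mem' := by
    rintro x y ⟨a, b, hb, rfl⟩ ⟨c, d, hd, rfl⟩
    refine ⟨a * c, b * d, fun h => ?_, ?_⟩
    · rcases (prime_int l).dvd_or_dvd h with h | h
      · exact hb h
      · exact hd h
    · push_cast
      rw [div_mul_div_comm]
  one_mem' := ⟨1, 1, fun h => (prime_int l).not_isUnit (isUnit_of_dvd_one h), by simp⟩
  add_mem' := by
    rintro x y ⟨a, b, hb, rfl⟩ ⟨c, d, hd, rfl⟩
    refine ⟨a * d + b * c, b * d, fun h => ?_, ?_⟩
    · rcases (prime_int l).dvd_or_dvd h with h | h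
      · exact hb h
      · exact hd h
    · have hb0 : (b : ℂ) ≠ 0 := by
        intro h0
        have : b = 0 := by exact_mod_cast h0
        exact hb (this ▸ dvd_zero _)
      have hd0 : (d : ℂ) ≠ 0 := by
        intro h0
        have : d = 0 := by exact_mod_cast h0
        exact hd (this ▸ dvd_zero _)
      push_cast
      rw [div_add_div _ _ hb0 hd0]
  zero_mem' := ⟨0, 1, fun h => (prime_int l).not_isUnit (isUnit_of_dvd_one h), by simp⟩
  neg_mem' := by
    rintro x ⟨a, b, hb, rfl⟩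
    exact ⟨-a, b, hb, by push_cast; rw [neg_div]⟩

theorem mem_Zl_iff {x : ℂ} :
    x ∈ Zl l ↔ ∃ a b : ℤ, ¬ (l : ℤ) ∣ b ∧ x = (a : ℂ) / (b : ℂ) := Iff.rfl

theorem intCast_mem (n : ℤ) : (n : ℂ) ∈ Zl l :=
  ⟨n, 1, fun h => (prime_int l).not_isUnit (isUnit_of_dvd_one h), by simp⟩

theorem natCast_mem (n : ℕ) : (n : ℂ) ∈ Zl l := by
  have := intCast_mem l (n : ℤ)
  rwa [Int.cast_natCast] at this

variable {l}

theorem zmod_ne_zero {b : ℤ} (hb : ¬ (l : ℤ) ∣ b) : (b : ZMod l) ≠ 0 := by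
  rwa [Ne, ZMod.intCast_zmod_eq_zero_iff_dvd]

omit hl in
theorem complex_ne_zero {b : ℤ} (hb : ¬ (l : ℤ) ∣ b) : (b : ℂ) ≠ 0 := by
  intro h0
  have : b = 0 := by exact_mod_cast h0
  exact hb (this ▸ dvd_zero _)

variable (l)

/-- The underlying function of the reduction map. -/
noncomputable def redFun (x : Zl l) : ZMod l :=
  ((Classical.choose x.2 : ℤ) : ZMod l) / ((Classical.choose (Classical.choose_spec x.2) : ℤ) : ZMod l)

theorem redFun_eq (x : Zl l) (a b : ℤ) (hb : ¬ (l : ℤ) ∣ b) (hx : (x : ℂ) = (a : ℂ) / (b : ℂ)) :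
    redFun l x = (a : ZMod l) / (b : ZMod l) := by
  obtain ⟨hb0, hx0⟩ := Classical.choose_spec (Classical.choose_spec x.2)
  set a0 := Classical.choose x.2
  set b0 := Classical.choose (Classical.choose_spec x.2)
  have h1 : (a0 : ℂ) * (b : ℂ) = (a : ℂ) * (b0 : ℂ) := by
    have := hx0.symm.trans hx
    rwa [div_eq_div_iff (complex_ne_zero hb0) (complex_ne_zero hb)] at this
  have h2 : a0 * b = a * b0 := by exact_mod_cast h1
  have h3 : (a0 : ZMod l) * (b : ZMod l) = (a : ZMod l) * (b0 : ZMod l) := by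
    exact_mod_cast congrArg (Int.cast : ℤ → ZMod l) h2
  show (a0 : ZMod l) / (b0 : ZMod l) = _
  rw [div_eq_div_iff (zmod_ne_zero hb0) (zmod_ne_zero hb)]
  exact h3

/-- Reduction mod `l`. -/
noncomputable def red : Zl l →+* ZMod l where
  toFun := redFun l
  map_one' := by
    rw [redFun_eq l 1 1 1 (fun h => (prime_int l).not_isUnit (isUnit_of_dvd_one h)) (by simp)]
    simp
  map_mul' := by
    rintro ⟨x, a, b, hb, rfl⟩ ⟨y, c, d, hd, rfl⟩
    have hbd : ¬ (l : ℤ) ∣ b * d := fun h => by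
      rcases (prime_int l).dvd_or_dvd h with h | h
      · exact hb h
      · exact hd h
    rw [redFun_eq l _ (a * c) (b * d) hbd (by push_cast; rw [div_mul_div_comm]),
      redFun_eq l _ a b hb rfl, redFun_eq l _ c d hd rfl]
    push_cast
    rw [div_mul_div_comm]
  map_zero' := by
    rw [redFun_eq l 0 0 1 (fun h => (prime_int l).not_isUnit (isUnit_of_dvd_one h)) (by simp)]
    simp
  map_add' := by
    rintro ⟨x, a, b, hb, rfl⟩ ⟨y, c, d, hd, rfl⟩
    have hbd : ¬ (l : ℤ) ∣ b * d := fun h => by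
      rcases (prime_int l).dvd_or_dvd h with h | h
      · exact hb h
      · exact hd h
    rw [redFun_eq l _ (a * d + b * c) (b * d) hbd
        (by push_cast; rw [div_add_div _ _ (complex_ne_zero hb) (complex_ne_zero hd)]),
      redFun_eq l _ a b hb rfl, redFun_eq l _ c d hd rfl]
    push_cast
    rw [div_add_div _ _ (zmod_ne_zero hb) (zmod_ne_zero hd)]

theorem red_eq_of_repr (x : Zl l) (a b : ℤ) (hb : ¬ (l : ℤ) ∣ b)
    (hx : (x : ℂ) = (a : ℂ) / (b : ℂ)) : red l x = (a : ZMod l) / (b : ZMod l) :=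
  redFun_eq l x a b hb hx

theorem red_intCast (n : ℤ) : red l ⟨(n : ℂ), intCast_mem l n⟩ = (n : ZMod l) := by
  rw [red_eq_of_repr l _ n 1 (fun h => (prime_int l).not_isUnit (isUnit_of_dvd_one h)) (by simp)]
  simp

theorem red_surjective : Function.Surjective (red l) := by
  intro y
  refine ⟨⟨((y.val : ℤ) : ℂ), intCast_mem l _⟩, ?_⟩
  rw [red_intCast]
  simp

theorem red_eq_zero_iff (x : Zl l) :
    red l x = 0 ↔ ∃ y : Zl l, (x : ℂ) = (l : ℂ) * (y : ℂ) := by
  constructor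
  · intro h
    obtain ⟨a, b, hb, hx⟩ := x.2
    rw [red_eq_of_repr l x a b hb hx, div_eq_zero_iff] at h
    rcases h with h | h
    · rw [ZMod.intCast_zmod_eq_zero_iff_dvd] at h
      obtain ⟨a', rfl⟩ := h
      refine ⟨⟨(a' : ℂ) / (b : ℂ), a', b, hb, rfl⟩, ?_⟩
      rw [hx]
      push_cast
      ring
    · exact absurd h (zmod_ne_zero hb)
  · rintro ⟨y, hy⟩
    have hxy : x = ⟨(l : ℂ), natCast_mem l l⟩ * y := Subtype.ext hy
    rw [hxy, map_mul]
    have : red l ⟨(l : ℂ), natCast_mem l l⟩ = 0 := by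
      have h1 := red_intCast l (l : ℤ)
      have h2 : (⟨((l : ℤ) : ℂ), intCast_mem l (l : ℤ)⟩ : Zl l) = ⟨(l : ℂ), natCast_mem l l⟩ :=
        Subtype.ext (by simp)
      rw [h2] at h1
      rw [h1]
      simp
    rw [this, zero_mul]

theorem red_natCast (n : ℕ) : red l ⟨(n : ℂ), natCast_mem l n⟩ = (n : ZMod l) := by
  have h1 := red_intCast l (n : ℤ)
  have h2 : (⟨((n : ℤ) : ℂ), intCast_mem l (n : ℤ)⟩ : Zl l) = ⟨(n : ℂ), natCast_mem l n⟩ :=
    Subtype.ext (by simp)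
  rw [h2] at h1
  rw [h1]
  simp

/-- An element of `ℤ_(l)` with nonzero reduction is a unit of `ℤ_(l)`. -/
theorem inv_mem_of_red_ne_zero (x : Zl l) (hx : red l x ≠ 0) : (x : ℂ)⁻¹ ∈ Zl l := by
  obtain ⟨a, b, hb, hxe⟩ := x.2
  rw [red_eq_of_repr l x a b hb hxe] at hx
  have ha : ¬ (l : ℤ) ∣ a := by
    intro h
    apply hx
    rw [div_eq_zero_iff]
    left
    rwa [ZMod.intCast_zmod_eq_zero_iff_dvd]
  exact ⟨b, a, ha, by rw [hxe, inv_div]⟩

/-- Every nonzero element of `ℤ_(l)` is a power of `l` times a unit. -/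
theorem exists_pow_mul_unit (x : Zl l) (hx : (x : ℂ) ≠ 0) :
    ∃ (r : ℕ) (u : Zl l), red l u ≠ 0 ∧ (x : ℂ) = (l : ℂ) ^ r * (u : ℂ) := by
  obtain ⟨a, b, hb, hxe⟩ := x.2
  have ha0 : a ≠ 0 := by
    rintro rfl
    apply hx
    rw [hxe]
    simp
  obtain ⟨r, a', ha', rfl⟩ : ∃ (r : ℕ) (a' : ℤ), ¬ (l : ℤ) ∣ a' ∧ a = (l : ℤ) ^ r * a' := by
    have hfin : FiniteMultiplicity (l : ℤ) a :=
      Int.finiteMultiplicity_iff.mpr ⟨by
        have := hl.out.one_lt
        intro h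
        have : (l : ℤ).natAbs = l := Int.natAbs_natCast l
        omega, ha0⟩
    obtain ⟨c, hc1, hc2⟩ := hfin.exists_eq_pow_mul_and_not_dvd
    exact ⟨_, c, hc2, hc1⟩
  refine ⟨r, ⟨(a' : ℂ) / (b : ℂ), a', b, hb, rfl⟩, ?_, ?_⟩
  · rw [red_eq_of_repr l _ a' b hb rfl]
    rw [Ne, div_eq_zero_iff, not_or]
    exact ⟨zmod_ne_zero ha', zmod_ne_zero hb⟩
  · rw [hxe]
    push_cast
    ring

/-- The additive subgroup `l • ℤ_(l)` of `ℂ`. -/
def lZl : AddSubgroup ℂ where
  carrier := {x | ∃ y : Zl l, x = (l : ℂ) * (y : ℂ)}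
  add_mem' := by
    rintro _ _ ⟨y, rfl⟩ ⟨z, rfl⟩
    exact ⟨y + z, by push_cast; ring⟩
  zero_mem' := ⟨0, by simp⟩
  neg_mem' := by
    rintro _ ⟨y, rfl⟩
    exact ⟨-y, by push_cast; ring⟩

theorem mem_lZl_iff {x : ℂ} : x ∈ lZl l ↔ ∃ y : Zl l, x = (l : ℂ) * (y : ℂ) := Iff.rfl

theorem lZl_le : lZl l ≤ (Zl l).toAddSubgroup := by
  rintro _ ⟨y, rfl⟩
  exact (Zl l).mul_mem (natCast_mem l l) y.2

theorem red_eq_zero_iff_mem (x : Zl l) : red l x = 0 ↔ (x : ℂ) ∈ lZl l :=
  red_eq_zero_iff l x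

/-! ### Level one forms mod `l` -/

section MapGens

variable {R S : Type*} [CommRing R] [CommRing S]

theorem map_gens (ψ : R →+* S) (i : Fin 3) : PowerSeries.map ψ (gens R i) = gens S i := by
  have key : ∀ P : PowerSeries ℤ, PowerSeries.map ψ (P.map (Int.castRingHom R)) =
      P.map (Int.castRingHom S) := by
    intro P
    ext n
    simp [PowerSeries.coeff_map]
  fin_cases i <;> exact key _

/-- Base change of the evaluation at `E₄, E₆, Δ`. -/
theorem map_aeval_gens (ψ : R →+* S) (P : MvPolynomial (Fin 3) R) :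
    PowerSeries.map ψ (MvPolynomial.aeval (gens R) P) =
      MvPolynomial.aeval (gens S) (MvPolynomial.map ψ P) := by
  rw [MvPolynomial.aeval_def, MvPolynomial.aeval_def, MvPolynomial.eval₂_map,
    MvPolynomial.eval₂_comp_left (PowerSeries.map ψ)]
  congr 1
  · ext r
    simp
  · funext i
    exact map_gens ψ i

theorem isWH_map (ψ : R →+* S) {P : MvPolynomial (Fin 3) R} {k : ℤ}
    (hP : MvPolynomial.IsWeightedHomogeneous wts P k) :
    MvPolynomial.IsWeightedHomogeneous wts (MvPolynomial.map ψ P) k := by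
  intro d hd
  apply hP
  intro h0
  apply hd
  rw [MvPolynomial.coeff_map, h0, map_zero]

end MapGens

/-- **Level one forms mod `l`.**  A level one form of weight `k` whose `q`-expansion has
`l`-integral coefficients reduces mod `l` to an isobaric polynomial of weight `k` in
`E₄, E₆, Δ` over `ZMod l`. -/
theorem exists_mvPolynomial_mod (k : ℤ) (f : ℍ → ℂ) (hf : IsMF 𝒮ℒ k f)
    (hint : ∀ n : ℕ, (qExpansion 1 f).coeff n ∈ Zl l) :
    ∃ P : MvPolynomial (Fin 3) (ZMod l), MvPolynomial.IsWeightedHomogeneous wts P k ∧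
      ∀ n : ℕ, red l ⟨(qExpansion 1 f).coeff n, hint n⟩ =
        PowerSeries.coeff n (MvPolynomial.aeval (gens (ZMod l)) P) := by
  obtain ⟨P, hP, hq, -⟩ := exists_mvPolynomial_subring (Zl l) k f hf fun i _ => hint i
  refine ⟨MvPolynomial.map (red l) P, isWH_map (red l) hP, fun n => ?_⟩
  rw [← map_aeval_gens, PowerSeries.coeff_map]
  congr 1
  apply Subtype.ext
  have := congrArg (PowerSeries.coeff n) hq
  rw [evalQ, PowerSeries.coeff_map] at this
  exact this

/-- **Sturm bound mod `l` in level one.**  If the coefficients `a_i(f)`, `12 i ≤ k`, of a level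
one form of weight `k` with `l`-integral `q`-expansion vanish mod `l`, then all coefficients do. -/
theorem red_coeff_eq_zero_of_first (k : ℤ) (f : ℍ → ℂ) (hf : IsMF 𝒮ℒ k f)
    (hint : ∀ n : ℕ, (qExpansion 1 f).coeff n ∈ Zl l)
    (h0 : ∀ i : ℕ, 12 * (i : ℤ) ≤ k → red l ⟨(qExpansion 1 f).coeff i, hint i⟩ = 0) (n : ℕ) :
    red l ⟨(qExpansion 1 f).coeff n, hint n⟩ = 0 := by
  rw [red_eq_zero_iff_mem]
  exact coeff_mem_of_first (lZl l) k f hf
    (fun i hi => (red_eq_zero_iff_mem l _).mp (h0 i hi)) n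

/-- `l`-integrality from the first coefficients. -/
theorem coeff_mem_Zl_of_first (k : ℤ) (f : ℍ → ℂ) (hf : IsMF 𝒮ℒ k f)
    (h0 : ∀ i : ℕ, 12 * (i : ℤ) ≤ k → (qExpansion 1 f).coeff i ∈ Zl l) (n : ℕ) :
    (qExpansion 1 f).coeff n ∈ Zl l :=
  coeff_mem_of_first (Zl l).toAddSubgroup k f hf h0 n

end Fermat.Agent.S16.Rl
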