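import Mathlib
import Fermat.Prelude.Thm_CongruenceSubgroup_one_mem_strictPeriods_Gamma0

/-!
# S16, upper bound: arithmetic assembly of the prime-by-prime cases (T16, piece UB-asm)

`n := (p - 1) / gcd (p - 1) 12` (the prelude's `eisensteinNumerator p`).

If `D : ℕ → ℤ` is a sequence all of whose terms `D k` (`k ≥ 1`) are divisible by `M`
(`D k = σ'(k) - a_k(f)` for a cusp form `f` congruent to the Eisenstein series modulo `M`), then the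
normalised sequence `24 / (p - 1) * D k` (the higher `q`-coefficients of
`G = 24 / (p - 1) * (E - f) = 1 + …`) is, for every prime `ℓ` with `ℓ ^ e ∣ M`, `ℓ ^ e ∤ n`,
divisible by `ℓ ^ (1 + v_ℓ (24 / gcd (p - 1) 12))` in `ℤ_(ℓ)`.  So `M ∣ n` as soon as no prime `ℓ`
admits such a divisibility: this is exactly what the cases `U5`, `UP`, `U3`, `U2` exclude.

The arithmetic part is Mathlib only; the form-level wrapper uses one prelude lemma.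
-/

set_option autoImplicit false

namespace Fermat.Agent.S16.UpperAsm

/-- the sequence `x` is divisible by `ℓ ^ r` in the localisation `ℤ_(ℓ)`, termwise for `k ≥ 1` -/
def LDvd (ℓ r : ℕ) (x : ℕ → ℚ) : Prop :=
  ∀ k : ℕ, 1 ≤ k → ∃ a b : ℤ, ¬ (ℓ : ℤ) ∣ b ∧ x k = (ℓ : ℚ) ^ r * a / b

theorem LDvd.mono {ℓ r r' : ℕ} {x : ℕ → ℚ} (h : LDvd ℓ r x) (hr : r' ≤ r) : LDvd ℓ r' x := by
  intro k hk
  obtain ⟨a, b, hb, hx⟩ := h k hk
  refine ⟨(ℓ : ℤ) ^ (r - r') * a, b, hb, ?_⟩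
  rw [hx]
  have : (ℓ : ℚ) ^ r = (ℓ : ℚ) ^ r' * (ℓ : ℚ) ^ (r - r') := by
    rw [← pow_add, Nat.add_sub_cancel' hr]
  rw [this]
  push_cast
  ring

/-- the exponent excluded at the prime `ℓ` -/
def excl (p ℓ : ℕ) : ℕ := 1 + padicValNat ℓ (24 / Nat.gcd (p - 1) 12)

/-- **Arithmetic core.** -/
theorem dvd_of_forall_not_lDvd (p : ℕ) (hp : 2 ≤ p) (M : ℕ) (D : ℕ → ℤ)
    (hD : ∀ k : ℕ, 1 ≤ k → (M : ℤ) ∣ D k)
    (hU : ∀ ℓ : ℕ, ℓ.Prime →
      ¬ LDvd ℓ (excl p ℓ) (fun k => (24 : ℚ) / ((p : ℚ) - 1) * (D k : ℚ))) :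
    M ∣ (p - 1) / Nat.gcd (p - 1) 12 := by
  set g := Nat.gcd (p - 1) 12 with hg
  have hg12 : g ∣ 12 := Nat.gcd_dvd_right _ _
  have hgp : g ∣ p - 1 := Nat.gcd_dvd_left _ _
  have hg0 : 0 < g := Nat.gcd_pos_of_pos_right _ (by norm_num)
  set n := (p - 1) / g with hn
  have hng : n * g = p - 1 := Nat.div_mul_cancel hgp
  have hn0 : 0 < n := by
    rcases Nat.eq_zero_or_pos n with h | h
    · rw [h, zero_mul] at hng
      omega
    · exact h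
  have hg24 : g ∣ 24 := hg12.trans (by norm_num)
  set c := 24 / g with hc
  have hcg : c * g = 24 := Nat.div_mul_cancel hg24
  have hc0 : 0 < c := by
    rcases Nat.eq_zero_or_pos c with h | h
    · rw [h, zero_mul] at hcg
      omega
    · exact h
  -- `24 / (p - 1) = c / n`
  have hp1 : ((p : ℚ) - 1) = (n : ℚ) * (g : ℚ) := by
    have : ((p - 1 : ℕ) : ℚ) = (p : ℚ) - 1 := by
      rw [Nat.cast_sub (by omega)]; simp
    rw [← this, ← hng]; push_cast; ring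
  have hgq : (g : ℚ) ≠ 0 := by exact_mod_cast hg0.ne'
  have hnq : (n : ℚ) ≠ 0 := by exact_mod_cast hn0.ne'
  have hfrac : (24 : ℚ) / ((p : ℚ) - 1) = (c : ℚ) / (n : ℚ) := by
    rw [hp1]
    have : (24 : ℚ) = (c : ℚ) * (g : ℚ) := by exact_mod_cast hcg.symm
    rw [this]
    field_simp
  rw [Nat.dvd_iff_prime_pow_dvd_dvd]
  intro ℓ e hℓ hℓM
  by_contra hnot
  apply hU ℓ hℓ
  have := Fact.mk hℓ
  -- decompose `n = ℓ ^ s * n'` and `c = ℓ ^ v * w`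
  obtain ⟨s, n', hn', hns⟩ := Nat.exists_eq_pow_mul_and_not_dvd hn0.ne' ℓ hℓ.ne_one
  have hse : s < e := by
    by_contra hle
    rw [not_lt] at hle
    apply hnot
    rw [hns]
    exact (pow_dvd_pow ℓ hle).trans (Dvd.intro _ rfl)
  have hv : ℓ ^ padicValNat ℓ c ∣ c := pow_padicValNat_dvd
  obtain ⟨w, hw⟩ := hv
  obtain ⟨m', hm'⟩ := hℓM
  intro k hk
  obtain ⟨d, hd⟩ := hD k hk
  refine ⟨(ℓ : ℤ) ^ (e - s - 1) * (w : ℤ) * (m' : ℤ) * d, (n' : ℤ), ?_, ?_⟩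
  · intro hdvd
    exact hn' (by exact_mod_cast hdvd)
  · show (24 : ℚ) / ((p : ℚ) - 1) * (D k : ℚ) = _
    rw [hfrac, hd, excl, ← hg, ← hc]
    have hn'q : (n' : ℚ) ≠ 0 := by
      intro h0
      have : n' = 0 := by exact_mod_cast h0
      rw [this, mul_zero] at hns
      exact hn0.ne' hns
    have hℓq : (ℓ : ℚ) ≠ 0 := by exact_mod_cast hℓ.ne_zero
    have hnq' : (n : ℚ) = (ℓ : ℚ) ^ s * (n' : ℚ) := by exact_mod_cast hns
    have hcq : (c : ℚ) = (ℓ : ℚ) ^ padicValNat ℓ c * (w : ℚ) := by exact_mod_cast hw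
    have hMq : (M : ℚ) = (ℓ : ℚ) ^ e * (m' : ℚ) := by exact_mod_cast hm'
    have he : (ℓ : ℚ) ^ e = (ℓ : ℚ) ^ s * (ℓ : ℚ) ^ (e - s - 1) * (ℓ : ℚ) := by
      rw [← pow_add, ← pow_succ]
      congr 1
      omega
    push_cast
    rw [hnq', hcq, hMq, he]
    field_simp
    ring

/-! ### The excluded exponents, case by case -/

theorem gcd_pred_twelve (p r : ℕ) (hr : 1 ≤ r) (h : p % 12 = r) :
    Nat.gcd (p - 1) 12 = Nat.gcd (r - 1) 12 := by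
  have hp : p = 12 * (p / 12) + r := by
    have := Nat.div_add_mod p 12
    omega
  have h1 : p - 1 = (r - 1) + 12 * (p / 12) := by omega
  rw [h1, Nat.gcd_comm, Nat.gcd_add_mul_left_right, Nat.gcd_comm]

/-- a prime `p ≥ 5` is `1, 5, 7, 11` modulo `12` -/
theorem prime_mod_twelve {p : ℕ} (hp : p.Prime) (h5 : 5 ≤ p) :
    p % 12 = 1 ∨ p % 12 = 5 ∨ p % 12 = 7 ∨ p % 12 = 11 := by
  have h2 : ¬ 2 ∣ p := fun h => by
    have := (Nat.prime_dvd_prime_iff_eq Nat.prime_two hp).mp h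
    omega
  have h3 : ¬ 3 ∣ p := fun h => by
    have := (Nat.prime_dvd_prime_iff_eq Nat.prime_three hp).mp h
    omega
  omega

theorem padicValNat_two_two : padicValNat 2 2 = 1 := by
  simp

theorem padicValNat_two_four : padicValNat 2 4 = 2 := by
  rw [show (4 : ℕ) = 2 ^ 2 by norm_num, padicValNat.prime_pow]

theorem padicValNat_two_six : padicValNat 2 6 = 1 := by
  rw [show (6 : ℕ) = 2 ^ 1 * 3 by norm_num, padicValNat.mul (by norm_num) (by norm_num),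
    padicValNat.prime_pow, padicValNat.eq_zero_of_not_dvd (by norm_num)]

theorem padicValNat_two_twelve : padicValNat 2 12 = 2 := by
  rw [show (12 : ℕ) = 2 ^ 2 * 3 by norm_num, padicValNat.mul (by norm_num) (by norm_num),
    padicValNat.prime_pow, padicValNat.eq_zero_of_not_dvd (by norm_num)]

theorem padicValNat_three_six : padicValNat 3 6 = 1 := by
  rw [show (6 : ℕ) = 3 ^ 1 * 2 by norm_num, padicValNat.mul (by norm_num) (by norm_num),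
    padicValNat.prime_pow, padicValNat.eq_zero_of_not_dvd (by norm_num)]

theorem padicValNat_three_twelve : padicValNat 3 12 = 1 := by
  rw [show (12 : ℕ) = 3 ^ 1 * 4 by norm_num, padicValNat.mul (by norm_num) (by norm_num),
    padicValNat.prime_pow, padicValNat.eq_zero_of_not_dvd (by norm_num)]

/-- the quotient `24 / gcd (p - 1) 12` for a prime `p ≥ 5` -/
theorem quot_cases {p : ℕ} (hp : p.Prime) (h5 : 5 ≤ p) :
    (p % 12 = 1 ∧ 24 / Nat.gcd (p - 1) 12 = 2) ∨ (p % 12 = 5 ∧ 24 / Nat.gcd (p - 1) 12 = 6) ∨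
      (p % 12 = 7 ∧ 24 / Nat.gcd (p - 1) 12 = 4) ∨
      (p % 12 = 11 ∧ 24 / Nat.gcd (p - 1) 12 = 12) := by
  rcases prime_mod_twelve hp h5 with h | h | h | h
  · exact Or.inl ⟨h, by rw [gcd_pred_twelve p 1 le_rfl h]; decide⟩
  · exact Or.inr (Or.inl ⟨h, by rw [gcd_pred_twelve p 5 (by norm_num) h]; decide⟩)
  · exact Or.inr (Or.inr (Or.inl ⟨h, by rw [gcd_pred_twelve p 7 (by norm_num) h]; decide⟩))
  · exact Or.inr (Or.inr (Or.inr ⟨h, by rw [gcd_pred_twelve p 11 (by norm_num) h]; decide⟩))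

theorem excl_of_five_le {p ℓ : ℕ} (hp : p.Prime) (h5 : 5 ≤ p) (hℓ : ℓ.Prime) (hℓ5 : 5 ≤ ℓ) :
    excl p ℓ = 1 := by
  have hnd : ∀ c : ℕ, c ∣ 12 → 0 < c → ¬ ℓ ∣ c := by
    intro c hc hc0 hdvd
    have h12 : ℓ ∣ 12 := hdvd.trans hc
    have : ℓ ∣ 2 ^ 2 * 3 := by norm_num; exact h12
    rcases (Nat.Prime.dvd_mul hℓ).mp this with h | h
    · have := (Nat.prime_dvd_prime_iff_eq hℓ Nat.prime_two).mp (hℓ.dvd_of_dvd_pow h)
      omega
    · have := (Nat.prime_dvd_prime_iff_eq hℓ Nat.prime_three).mp h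
      omega
  unfold excl
  rcases quot_cases hp h5 with ⟨-, h⟩ | ⟨-, h⟩ | ⟨-, h⟩ | ⟨-, h⟩ <;> rw [h] <;>
    rw [padicValNat.eq_zero_of_not_dvd (hnd _ (by norm_num) (by norm_num))]

theorem excl_three {p : ℕ} (hp : p.Prime) (h5 : 5 ≤ p) :
    (p % 3 = 1 ∧ excl p 3 = 1) ∨ (p % 3 = 2 ∧ excl p 3 = 2) := by
  unfold excl
  rcases quot_cases hp h5 with ⟨hm, h⟩ | ⟨hm, h⟩ | ⟨hm, h⟩ | ⟨hm, h⟩ <;> rw [h]
  · exact Or.inl ⟨by omega, by rw [padicValNat.eq_zero_of_not_dvd (by norm_num)]⟩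
  · exact Or.inr ⟨by omega, by rw [padicValNat_three_six]⟩
  · exact Or.inl ⟨by omega, by rw [padicValNat.eq_zero_of_not_dvd (by norm_num)]⟩
  · exact Or.inr ⟨by omega, by rw [padicValNat_three_twelve]⟩

theorem excl_two {p : ℕ} (hp : p.Prime) (h5 : 5 ≤ p) :
    (p % 4 = 1 ∧ excl p 2 = 2) ∨ (p % 4 = 3 ∧ excl p 2 = 3) := by
  unfold excl
  rcases quot_cases hp h5 with ⟨hm, h⟩ | ⟨hm, h⟩ | ⟨hm, h⟩ | ⟨hm, h⟩ <;> rw [h]
  · exact Or.inl ⟨by omega, by rw [padicValNat_two_two]⟩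
  · exact Or.inl ⟨by omega, by rw [padicValNat_two_six]⟩
  · exact Or.inr ⟨by omega, by rw [padicValNat_two_four]⟩
  · exact Or.inr ⟨by omega, by rw [padicValNat_two_twelve]⟩

/-- **Upper bound from the five cases** (sequence form): for a prime `p ≥ 5`. -/
theorem dvd_of_cases {p : ℕ} (hp : p.Prime) (h5 : 5 ≤ p) (M : ℕ) (D : ℕ → ℤ)
    (hD : ∀ k : ℕ, 1 ≤ k → (M : ℤ) ∣ D k)
    (hU5 : ∀ ℓ : ℕ, ℓ.Prime → 5 ≤ ℓ →
      ¬ LDvd ℓ 1 (fun k => (24 : ℚ) / ((p : ℚ) - 1) * (D k : ℚ)))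
    (hU3a : p % 3 = 1 → ¬ LDvd 3 1 (fun k => (24 : ℚ) / ((p : ℚ) - 1) * (D k : ℚ)))
    (hU3b : p % 3 = 2 → ¬ LDvd 3 2 (fun k => (24 : ℚ) / ((p : ℚ) - 1) * (D k : ℚ)))
    (hU2a : p % 4 = 1 → ¬ LDvd 2 2 (fun k => (24 : ℚ) / ((p : ℚ) - 1) * (D k : ℚ)))
    (hU2b : p % 4 = 3 → ¬ LDvd 2 3 (fun k => (24 : ℚ) / ((p : ℚ) - 1) * (D k : ℚ))) :
    M ∣ (p - 1) / Nat.gcd (p - 1) 12 := by
  refine dvd_of_forall_not_lDvd p (by omega) M D hD fun ℓ hℓ => ?_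
  by_cases hℓ5 : 5 ≤ ℓ
  · rw [excl_of_five_le hp h5 hℓ hℓ5]
    exact hU5 ℓ hℓ hℓ5
  · have hℓ23 : ℓ = 2 ∨ ℓ = 3 := by
      have h2 := hℓ.two_le
      have h4 : ℓ ≠ 4 := fun h => by rw [h] at hℓ; exact absurd hℓ (by decide)
      omega
    rcases hℓ23 with rfl | rfl
    · rcases excl_two hp h5 with ⟨hm, he⟩ | ⟨hm, he⟩ <;> rw [he]
      · exact hU2a hm
      · exact hU2b hm
    · rcases excl_three hp h5 with ⟨hm, he⟩ | ⟨hm, he⟩ <;> rw [he]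
      · exact hU3a hm
      · exact hU3b hm

/-! ### Form level -/

section Forms

open UpperHalfPlane ModularFormClass CongruenceSubgroup

/-- `UnitCong p ℓ r`: there is a modular form of weight `2` on `Γ₀(p)` with constant term `1` all
of whose higher `q`-coefficients are rational numbers divisible by `ℓ ^ r` in `ℤ_(ℓ)`.
The cases `U5`, `UP`, `U3`, `U2` of the upper bound are statements `¬ UnitCong p ℓ r`. -/
def UnitCong (p ℓ r : ℕ) : Prop :=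
  ∃ G : ModularForm (Gamma0 p) 2, (qExpansion 1 G).coeff 0 = 1 ∧
    ∀ k : ℕ, 1 ≤ k → ∃ a b : ℤ, ¬ (ℓ : ℤ) ∣ b ∧
      (qExpansion 1 G).coeff k = (ℓ : ℂ) ^ r * (a : ℂ) / (b : ℂ)

theorem UnitCong.mono {p ℓ r r' : ℕ} (h : UnitCong p ℓ r) (hr : r' ≤ r) : UnitCong p ℓ r' := by
  obtain ⟨G, h0, hk⟩ := h
  refine ⟨G, h0, fun k hk1 => ?_⟩
  obtain ⟨a, b, hb, hx⟩ := hk k hk1
  refine ⟨(ℓ : ℤ) ^ (r - r') * a, b, hb, ?_⟩
  rw [hx]
  have : (ℓ : ℂ) ^ r = (ℓ : ℂ) ^ r' * (ℓ : ℂ) ^ (r - r') := by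
    rw [← pow_add, Nat.add_sub_cancel' hr]
  rw [this]
  push_cast
  ring

theorem coeff_qExpansion_smul {p : ℕ} (c : ℂ) (G : ModularForm (Gamma0 p) 2) (k : ℕ) :
    (qExpansion 1 (⇑(c • G) : ℍ → ℂ)).coeff k = c * (qExpansion 1 (⇑G : ℍ → ℂ)).coeff k := by
  have h1 : (⇑(c • G) : ℍ → ℂ) = c • (⇑G : ℍ → ℂ) := by
    ext z
    simp
  rw [h1, ModularForm.qExpansion_smul one_pos (CongruenceSubgroup.one_mem_strictPeriods_Gamma0 p) c G]
  simp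

/-- normalising a form with constant term `(p - 1) / 24` -/
theorem unitCong_of_lDvd {p ℓ r : ℕ} (hp : 2 ≤ p) (G0 : ModularForm (Gamma0 p) 2) (D : ℕ → ℤ)
    (h0 : (qExpansion 1 G0).coeff 0 = ((p : ℂ) - 1) / 24)
    (hk : ∀ k : ℕ, 1 ≤ k → (qExpansion 1 G0).coeff k = (D k : ℂ))
    (h : LDvd ℓ r (fun k => (24 : ℚ) / ((p : ℚ) - 1) * (D k : ℚ))) : UnitCong p ℓ r := by
  have hp1 : ((p : ℂ) - 1) ≠ 0 := by
    have : ((p : ℂ) - 1) = ((p - 1 : ℕ) : ℂ) := by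
      rw [Nat.cast_sub (by omega)]; simp
    rw [this]
    exact_mod_cast (by omega : p - 1 ≠ 0)
  refine ⟨((24 : ℂ) / ((p : ℂ) - 1)) • G0, ?_, fun k hk1 => ?_⟩
  · rw [coeff_qExpansion_smul, h0]
    field_simp
  · obtain ⟨a, b, hb, hx⟩ := h k hk1
    refine ⟨a, b, hb, ?_⟩
    rw [coeff_qExpansion_smul, hk k hk1]
    have := congrArg (fun x : ℚ => (x : ℂ)) hx
    simp only at this
    push_cast at this
    exact this

/-- **Upper bound from the five cases** (form level): let `p ≥ 5` be prime and `G0` a modular form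
of weight `2` on `Γ₀(p)` with `q`-expansion `(p - 1) / 24 + ∑ D k q ^ k`, where `M ∣ D k` for all
`k ≥ 1` (`G0 = E - f` for a cusp form `f` congruent to the Eisenstein series `E` modulo `M`).
If the cases exclude `UnitCong`, then `M` divides `(p - 1) / gcd (p - 1) 12`. -/
theorem dvd_of_cases_form {p : ℕ} (hp : p.Prime) (h5 : 5 ≤ p) (M : ℕ)
    (G0 : ModularForm (Gamma0 p) 2) (D : ℕ → ℤ)
    (h0 : (qExpansion 1 G0).coeff 0 = ((p : ℂ) - 1) / 24)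
    (hk : ∀ k : ℕ, 1 ≤ k → (qExpansion 1 G0).coeff k = (D k : ℂ))
    (hD : ∀ k : ℕ, 1 ≤ k → (M : ℤ) ∣ D k)
    (hU5 : ∀ ℓ : ℕ, ℓ.Prime → 5 ≤ ℓ → ¬ UnitCong p ℓ 1)
    (hU3a : p % 3 = 1 → ¬ UnitCong p 3 1) (hU3b : p % 3 = 2 → ¬ UnitCong p 3 2)
    (hU2a : p % 4 = 1 → ¬ UnitCong p 2 2) (hU2b : p % 4 = 3 → ¬ UnitCong p 2 3) :
    M ∣ (p - 1) / Nat.gcd (p - 1) 12 :=
  dvd_of_cases hp h5 M D hD
    (fun ℓ hℓ hℓ5 h => hU5 ℓ hℓ hℓ5 (unitCong_of_lDvd (by omega) G0 D h0 hk h))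
    (fun hm h => hU3a hm (unitCong_of_lDvd (by omega) G0 D h0 hk h))
    (fun hm h => hU3b hm (unitCong_of_lDvd (by omega) G0 D h0 hk h))
    (fun hm h => hU2a hm (unitCong_of_lDvd (by omega) G0 D h0 hk h))
    (fun hm h => hU2b hm (unitCong_of_lDvd (by omega) G0 D h0 hk h))

end Forms

end Fermat.Agent.S16.UpperAsm
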