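/-
# S16, PAIR extras (helper53): the hard direction of the pairing front-end in "kernel" form

* `Cong.of_dvd` : `Cong p m → n ∣ m → Cong p n`.
* `cong_natCard` : `Cong p #(T/I)` (the hard direction of `card_quotient_eq_of_cong`).
* `cong_of_ker_dvd` : if every Hecke polynomial `P` acting as `0` on the lattice has
  `M ∣ ε(P)` (`ε` = the Eisenstein eigensystem), then `Cong p M`  (request of LB, board 960).
* `card_quotient_eq_of_ker_dvd` : the S16 statement from `ker_dvd` + UPPER.
-/
import Fermat.Agent.S16.Pairing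

set_option autoImplicit false

namespace Fermat.Agent.S16

open ModularCurve CuspForm ModularFormClass CongruenceSubgroup

theorem Cong.of_dvd {p m n : ℕ} (h : Cong p m) (hd : n ∣ m) : Cong p n := by
  obtain ⟨f, hf, hk⟩ := h
  refine ⟨f, hf, fun k hk1 => ?_⟩
  obtain ⟨c, hc, hc'⟩ := hk k hk1
  exact ⟨c, hc, hc'.of_dvd (Int.natCast_dvd_natCast.2 hd)⟩

section

variable (p : ℕ) [Fact p.Prime]

/-- The hard direction of the pairing front-end: there is a cusp form in `L` congruent to the
Eisenstein `q`-series modulo the index of the Eisenstein ideal. -/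
theorem cong_natCard : Cong p (Nat.card (↥(heckeLatticeAlgebra p ∅) ⧸ eisI p)) := by
  have hs := isEisSeq_sigmaP p
  rw [cong_iff]
  obtain ⟨ψ, hψ⟩ := exists_linear_lift p
  obtain ⟨f, hf⟩ := exists_pairT_eq p ψ
  refine ⟨f, fun k hk => ?_⟩
  obtain ⟨t, ht1, ht2⟩ := exists_hecke p hs k hk
  rw [← ht1 f, hf t]
  have h3 : (((sigmaP p k - ψ t : ℤ)) : ↥(heckeLatticeAlgebra p ∅)) ∈ eisI p := by
    have := (eisI p).sub_mem (hψ t) ht2
    rw [sub_sub_sub_cancel_left] at this
    rw [Int.cast_sub]
    exact this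
  exact (Int.modEq_iff_dvd).2 (natCard_dvd_of_intCast_mem p _ h3)

/-- If `M` divides `ε(P)` for every Hecke polynomial `P` acting as zero on the lattice, then `M`
divides the index of the Eisenstein ideal. -/
theorem dvd_natCard_of_ker_dvd (M : ℕ)
    (h : ∀ P : ModularCurve.HeckeAlg,
      ((latticeRestrictHom p ∅).toRingHom.comp (heckeEvalForms p 2)) P = 0 →
        (M : ℤ) ∣ MvPolynomial.aeval (eisensteinSystem p) P) :
    M ∣ Nat.card (↥(heckeLatticeAlgebra p ∅) ⧸ eisI p) := by
  have hm := natCard_mem p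
  obtain ⟨x, hx, hxm⟩ := (Ideal.mem_map_iff_of_surjective (phi p) (phi_surjective p)).1 hm
  have hx0 : MvPolynomial.aeval (eisensteinSystem p) x = 0 := (mem_eigenIdeal_iff _ _).1 hx
  have hP : phi p (x - MvPolynomial.C
      ((Nat.card (↥(heckeLatticeAlgebra p ∅) ⧸ eisI p) : ℕ) : ℤ)) = 0 := by
    rw [map_sub, phi_C, hxm, sub_self]
  have h1 := h _ hP
  rw [map_sub, hx0, MvPolynomial.aeval_C, zero_sub, dvd_neg] at h1
  exact Int.natCast_dvd_natCast.1 h1

/-- **Kernel form of the hard direction** (for the lower bound): if every Hecke polynomial acting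
as `0` on `S₂(Γ₀(p), ℤ)` has Eisenstein eigenvalue divisible by `M`, there is a cusp form in the
lattice congruent to the Eisenstein `q`-series modulo `M`. -/
theorem cong_of_ker_dvd (M : ℕ)
    (h : ∀ P : ModularCurve.HeckeAlg,
      ((latticeRestrictHom p ∅).toRingHom.comp (heckeEvalForms p 2)) P = 0 →
        (M : ℤ) ∣ MvPolynomial.aeval (eisensteinSystem p) P) :
    Cong p M :=
  (cong_natCard p).of_dvd (dvd_natCard_of_ker_dvd p M h)

/-- The S16 statement from the kernel form of the lower bound and the upper bound. -/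
theorem card_quotient_eq_of_ker_dvd (n : ℕ)
    (hLB : ∀ P : ModularCurve.HeckeAlg,
      ((latticeRestrictHom p ∅).toRingHom.comp (heckeEvalForms p 2)) P = 0 →
        (n : ℤ) ∣ MvPolynomial.aeval (eisensteinSystem p) P)
    (hUB : ∀ M : ℕ, Cong p M → M ∣ n) :
    Nat.card (↥(heckeLatticeAlgebra p ∅) ⧸
        Ideal.map ((latticeRestrictHom p ∅).toRingHom.comp (heckeEvalForms p 2))
          (eisensteinIdeal p)) = n :=
  card_quotient_eq_of_cong p n (cong_of_ker_dvd p n hLB) hUB

end

end Fermat.Agent.S16
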