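/-
# S16 / FIN dry-run (helper53)

The frozen S16 statement from the pieces already on main, with the pieces still in progress
(U5, U3b, LOWER) as hypotheses.  Purpose: check that the whole closure imports together and that
all the interfaces fit.  When `h5`, `h3b` and `hLB` are on main, `S16.lean` is this term with the
three hypotheses filled in.
-/
import Fermat.Agent.S16.Pairing
import Fermat.Agent.S16.PairingKer
import Fermat.Agent.S16.Arith.Final
import Fermat.Agent.S16.UP.Main
import Fermat.Agent.S16.U2Seven.Final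
import Fermat.Agent.S16.TraceCases.Final

set_option autoImplicit false

namespace Fermat.Agent.S16.FinDry

open ModularCurve CuspForm

/-- UPPER from the two cases still in progress. -/
theorem upper_of (p : ℕ) [Fact p.Prime]
    (h5 : 5 ≤ p → ∀ l : ℕ, l.Prime → 5 ≤ l → l ≠ p → Fermat.Agent.S16.NoConstInt p l 1)
    (h3b : 5 ≤ p → p % 3 = 2 → Fermat.Agent.S16.NoConstInt p 3 2) :
    ∀ M : ℕ, Fermat.Agent.S16.Cong p M → M ∣ eisensteinNumerator p :=
  Fermat.Agent.S16.Arith.upper_of_cases p h5
    (fun h => Fermat.Agent.S16.UP.noConstInt_self p h)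
    (fun _ h => Fermat.Agent.S16.TraceCases.noConstInt_three_one h)
    h3b
    (fun _ h => Fermat.Agent.S16.TraceCases.noConstInt_two_two h)
    (fun _ h => Fermat.Agent.S16.TraceCases.noConstInt_two_three_of_mod h)
    (fun _ h => Fermat.Agent.S16.U2Seven.noConstInt_two_seven p h)

/-- The S16 statement, `LOWER` in `Cong` form. -/
theorem result_of_cong (p : ℕ) [Fact p.Prime]
    (h5 : 5 ≤ p → ∀ l : ℕ, l.Prime → 5 ≤ l → l ≠ p → Fermat.Agent.S16.NoConstInt p l 1)
    (h3b : 5 ≤ p → p % 3 = 2 → Fermat.Agent.S16.NoConstInt p 3 2)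
    (hLB : Fermat.Agent.S16.Cong p (eisensteinNumerator p)) :
    Nat.card (↥(heckeLatticeAlgebra p ∅) ⧸
        Ideal.map ((latticeRestrictHom p ∅).toRingHom.comp (heckeEvalForms p 2))
          (eisensteinIdeal p)) =
      eisensteinNumerator p :=
  Fermat.Agent.S16.card_quotient_eq_of_cong p _ hLB (upper_of p h5 h3b)

/-- The S16 statement, `LOWER` in kernel form (`ker_dvd`). -/
theorem result_of_ker_dvd (p : ℕ) [Fact p.Prime]
    (h5 : 5 ≤ p → ∀ l : ℕ, l.Prime → 5 ≤ l → l ≠ p → Fermat.Agent.S16.NoConstInt p l 1)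
    (h3b : 5 ≤ p → p % 3 = 2 → Fermat.Agent.S16.NoConstInt p 3 2)
    (hker : ∀ P : ModularCurve.HeckeAlg,
      ((latticeRestrictHom p ∅).toRingHom.comp (heckeEvalForms p 2)) P = 0 →
        ((eisensteinNumerator p : ℕ) : ℤ) ∣ MvPolynomial.aeval (eisensteinSystem p) P) :
    Nat.card (↥(heckeLatticeAlgebra p ∅) ⧸
        Ideal.map ((latticeRestrictHom p ∅).toRingHom.comp (heckeEvalForms p 2))
          (eisensteinIdeal p)) =
      eisensteinNumerator p :=
  Fermat.Agent.S16.card_quotient_eq_of_ker_dvd p _ hker (upper_of p h5 h3b)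

end Fermat.Agent.S16.FinDry
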