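/-
# S16 / FIN dry-run 2 (helper53)

As `FinDry.lean`, with U5 (`U5/Final.lean`, helper42) plugged in: the frozen S16 statement with
only U3b and LOWER left as hypotheses.
-/
import Fermat.Agent.S16.FinDry
import Fermat.Agent.S16.U5.Final

set_option autoImplicit false

namespace Fermat.Agent.S16.FinDry2

open ModularCurve CuspForm

/-- UPPER from U3b. -/
theorem upper_of (p : ℕ) [Fact p.Prime]
    (h3b : 5 ≤ p → p % 3 = 2 → Fermat.Agent.S16.NoConstInt p 3 2) :
    ∀ M : ℕ, Fermat.Agent.S16.Cong p M → M ∣ eisensteinNumerator p :=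
  Fermat.Agent.S16.FinDry.upper_of p (fun _ => Fermat.Agent.S16.U5.noConstInt_five p) h3b

/-- The S16 statement, `LOWER` in `Cong` form. -/
theorem result_of_cong (p : ℕ) [Fact p.Prime]
    (h3b : 5 ≤ p → p % 3 = 2 → Fermat.Agent.S16.NoConstInt p 3 2)
    (hLB : Fermat.Agent.S16.Cong p (eisensteinNumerator p)) :
    Nat.card (↥(heckeLatticeAlgebra p ∅) ⧸
        Ideal.map ((latticeRestrictHom p ∅).toRingHom.comp (heckeEvalForms p 2))
          (eisensteinIdeal p)) =
      eisensteinNumerator p :=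
  Fermat.Agent.S16.card_quotient_eq_of_cong p _ hLB (upper_of p h3b)

/-- The S16 statement, `LOWER` in kernel form (`ker_dvd`). -/
theorem result_of_ker_dvd (p : ℕ) [Fact p.Prime]
    (h3b : 5 ≤ p → p % 3 = 2 → Fermat.Agent.S16.NoConstInt p 3 2)
    (hker : ∀ P : ModularCurve.HeckeAlg,
      ((latticeRestrictHom p ∅).toRingHom.comp (heckeEvalForms p 2)) P = 0 →
        ((eisensteinNumerator p : ℕ) : ℤ) ∣ MvPolynomial.aeval (eisensteinSystem p) P) :
    Nat.card (↥(heckeLatticeAlgebra p ∅) ⧸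
        Ideal.map ((latticeRestrictHom p ∅).toRingHom.comp (heckeEvalForms p 2))
          (eisensteinIdeal p)) =
      eisensteinNumerator p :=
  Fermat.Agent.S16.card_quotient_eq_of_ker_dvd p _ hker (upper_of p h3b)

end Fermat.Agent.S16.FinDry2
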