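import Mathlib
import Fermat.Agent.S16.LocalRing

/-!
# T16 / L1-SMALL: level one forms mod `2` and mod `3` are polynomials in `Δ̄`

Owner: helper30.  Builds on `S16/LevelOneIntegral.lean` (`L1`) and `S16/LocalRing.lean` (`Rl`).

Over a ring `K` in which `240 = 0 = 504` (characteristic `2` or `3`), `E₄ ≡ E₆ ≡ 1`, so the
reduction of a level one form with integral `q`-expansion is a polynomial in
`Δ̄ = DeltaZ.map (Int.castRingHom K)`.

* `map_E4Z_eq_one_of`, `map_E6Z_eq_one_of`
* `exists_polynomial_of_small` : general ring version (`φ : S →+* ℂ`, `ρ : S →+* K`).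
* `exists_polynomial_mod_small` : `ℤ_(l)`-version for `l ∈ {2, 3}`.
-/

set_option autoImplicit false

open UpperHalfPlane ModularForm ModularFormClass
open scoped MatrixGroups ModularForm Manifold

namespace Fermat.Agent.S16.Rl

open Fermat.Agent.S23 Fermat.Agent.S16.L1

section Small

variable {K : Type*} [CommRing K]

theorem map_E4Z_eq_one_of (h : (240 : K) = 0) : E4Z.map (Int.castRingHom K) = 1 := by
  rw [E4Z_eq, map_add, map_one, map_mul, PowerSeries.map_C]
  have : (Int.castRingHom K) 240 = 0 := by simpa using h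
  rw [this, map_zero, zero_mul, add_zero]

theorem map_E6Z_eq_one_of (h : (504 : K) = 0) : E6Z.map (Int.castRingHom K) = 1 := by
  rw [E6Z_eq, map_sub, map_one, map_mul, PowerSeries.map_C]
  have : (Int.castRingHom K) 504 = 0 := by simpa using h
  rw [this, map_zero, zero_mul, sub_zero]

/-- The reduction of `Δ`. -/
noncomputable def DeltaBarOf (K : Type*) [CommRing K] : PowerSeries K :=
  DeltaZ.map (Int.castRingHom K)

theorem DeltaBarOf_eq_gens : DeltaBarOf K = gens K 2 := rfl

theorem constantCoeff_DeltaBarOf : PowerSeries.constantCoeff (DeltaBarOf K) = 0 := by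
  rw [DeltaBarOf, ← PowerSeries.coeff_zero_eq_constantCoeff_apply, PowerSeries.coeff_map,
    coeff_zero_DeltaZ, map_zero]

theorem coeff_one_DeltaBarOf : PowerSeries.coeff 1 (DeltaBarOf K) = 1 := by
  rw [DeltaBarOf, PowerSeries.coeff_map, coeff_one_DeltaZ, map_one]

/-- The substitution `X₀ ↦ 1, X₁ ↦ 1, X₂ ↦ X`. -/
noncomputable def smallFun (K : Type*) [CommRing K] : Fin 3 → Polynomial K :=
  ![1, 1, Polynomial.X]

/-- The polynomial in one variable obtained from `P(1, 1, X)`. -/
noncomputable def toPoly (P : MvPolynomial (Fin 3) K) : Polynomial K :=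
  MvPolynomial.aeval (smallFun K) P

theorem aeval_toPoly (h240 : (240 : K) = 0) (h504 : (504 : K) = 0)
    (P : MvPolynomial (Fin 3) K) :
    Polynomial.aeval (DeltaBarOf K) (toPoly P) = MvPolynomial.aeval (gens K) P := by
  rw [toPoly, MvPolynomial.comp_aeval_apply]
  have : (fun i => Polynomial.aeval (DeltaBarOf K) (smallFun K i)) = gens K := by
    funext i
    fin_cases i
    · simp [smallFun, gens, map_E4Z_eq_one_of h240]
    · simp [smallFun, gens, map_E6Z_eq_one_of h504]
    · simp [smallFun, gens, DeltaBarOf]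
  rw [this]

theorem natDegree_toPoly_le {P : MvPolynomial (Fin 3) K} {k : ℕ}
    (hP : MvPolynomial.IsWeightedHomogeneous wtsNat P k) :
    (toPoly P).natDegree * 12 ≤ k := by
  rw [toPoly, MvPolynomial.aeval_def, MvPolynomial.eval₂_eq']
  have hle : ∀ d ∈ P.support,
      ((algebraMap K (Polynomial K)) (MvPolynomial.coeff d P) *
        ∏ i, smallFun K i ^ d i).natDegree ≤ k / 12 := by
    intro d hd
    have hw : Finsupp.weight wtsNat d = k := hP (MvPolynomial.mem_support_iff.mp hd)
    have hd2 : 12 * d 2 ≤ k := by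
      rw [← hw, Finsupp.weight_apply, Finsupp.sum_fintype _ _ (fun i => by simp)]
      simp only [Fin.sum_univ_three, wtsNat, smul_eq_mul]
      simp only [Matrix.cons_val_zero, Matrix.cons_val_one, Matrix.cons_val]
      omega
    have hprod : ∏ i, smallFun K i ^ d i = Polynomial.X ^ d 2 := by
      simp [Fin.prod_univ_three, smallFun]
    rw [hprod, Polynomial.algebraMap_eq]
    refine (Polynomial.natDegree_C_mul_le _ _).trans ?_
    refine (Polynomial.natDegree_X_pow_le _).trans ?_
    omega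
  have := Polynomial.natDegree_sum_le_of_forall_le P.support _ hle
  omega

end Small

section General

variable {S K : Type*} [CommRing S] [CommRing K]

/-- **General form.**  `φ : S →+* ℂ` any coefficient ring, `ρ : S →+* K` any reduction to a ring
in which `240 = 504 = 0` (characteristic `2` or `3`).  A level one form of weight `k` whose first
coefficients lie in the range of `φ` has a `q`-expansion `F ∈ S⟦X⟧` whose reduction is a
polynomial of degree `≤ k / 12` in `Δ̄`. -/
theorem exists_polynomial_of_small (φ : S →+* ℂ) (ρ : S →+* K) (h240 : (240 : K) = 0)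
    (h504 : (504 : K) = 0) (k : ℕ) (f : ℍ → ℂ) (hf : IsMF 𝒮ℒ (k : ℤ) f)
    (hR : ∀ i : ℕ, 12 * (i : ℤ) ≤ k → (qExpansion 1 f).coeff i ∈ Set.range φ) :
    ∃ (F : PowerSeries S) (Pol : Polynomial K),
      PowerSeries.map φ F = qExpansion 1 f ∧ Pol.natDegree * 12 ≤ k ∧
      PowerSeries.map ρ F = Polynomial.aeval (DeltaBarOf K) Pol := by
  obtain ⟨P, hP, hq, -⟩ := exists_mvPolynomial φ (k : ℤ) f hf hR
  have hP' : MvPolynomial.IsWeightedHomogeneous wtsNat (MvPolynomial.map ρ P) k :=
    isWH_nat (isWH_map ρ hP)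
  refine ⟨MvPolynomial.aeval (gens S) P, toPoly (MvPolynomial.map ρ P), ?_,
    natDegree_toPoly_le hP', ?_⟩
  · rw [hq, evalQ]
  · rw [aeval_toPoly h240 h504, map_aeval_gens]

end General

variable (l : ℕ) [hl : Fact l.Prime]

theorem zmod_240_eq_zero (h : l = 2 ∨ l = 3) : (240 : ZMod l) = 0 := by
  have h' : ((240 : ℕ) : ZMod l) = 0 := by
    rw [ZMod.natCast_eq_zero_iff]
    rcases h with rfl | rfl <;> norm_num
  exact_mod_cast h'

theorem zmod_504_eq_zero (h : l = 2 ∨ l = 3) : (504 : ZMod l) = 0 := by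
  have h' : ((504 : ℕ) : ZMod l) = 0 := by
    rw [ZMod.natCast_eq_zero_iff]
    rcases h with rfl | rfl <;> norm_num
  exact_mod_cast h'

/-- `Δ̄ ∈ (ZMod l)⟦X⟧`. -/
noncomputable def DeltaBar : PowerSeries (ZMod l) := DeltaBarOf (ZMod l)

theorem DeltaBar_eq : DeltaBar l = DeltaZ.map (Int.castRingHom (ZMod l)) := rfl

theorem map_E4Z_eq_one (h : l = 2 ∨ l = 3) : E4Z.map (Int.castRingHom (ZMod l)) = 1 :=
  map_E4Z_eq_one_of (zmod_240_eq_zero l h)

theorem map_E6Z_eq_one (h : l = 2 ∨ l = 3) : E6Z.map (Int.castRingHom (ZMod l)) = 1 :=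
  map_E6Z_eq_one_of (zmod_504_eq_zero l h)

/-- **Level one forms mod `2`, `3`.**  A level one form of weight `k` whose `q`-expansion has
`l`-integral coefficients (`l ∈ {2, 3}`) reduces mod `l` to a polynomial of degree `≤ k / 12` in
`Δ̄`. -/
theorem exists_polynomial_mod_small (h : l = 2 ∨ l = 3) (k : ℤ) (f : ℍ → ℂ) (hf : IsMF 𝒮ℒ k f)
    (hint : ∀ n : ℕ, (qExpansion 1 f).coeff n ∈ Zl l) :
    ∃ Pol : Polynomial (ZMod l), Pol.natDegree * 12 ≤ k.toNat ∧
      ∀ n : ℕ, red l ⟨(qExpansion 1 f).coeff n, hint n⟩ =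
        PowerSeries.coeff n (Polynomial.aeval (DeltaBar l) Pol) := by
  obtain ⟨P, hP, hq⟩ := exists_mvPolynomial_mod l k f hf hint
  by_cases hk : 0 ≤ k
  · obtain ⟨m, rfl⟩ := Int.eq_ofNat_of_zero_le hk
    refine ⟨toPoly P, ?_, fun n => ?_⟩
    · have := natDegree_toPoly_le (K := ZMod l) (P := P) (k := m) (isWH_nat hP)
      simpa using this
    · rw [hq n, DeltaBar, aeval_toPoly (zmod_240_eq_zero l h) (zmod_504_eq_zero l h)]
  · -- negative weight: `P = 0`
    have hP0 : P = 0 := by
      by_contra hne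
      obtain ⟨d, hd⟩ := MvPolynomial.exists_coeff_ne_zero hne
      have hw := hP hd
      have hnn : (0 : ℤ) ≤ Finsupp.weight wts d := by
        rw [Finsupp.weight_apply, Finsupp.sum]
        refine Finset.sum_nonneg fun i _ => ?_
        have : (0 : ℤ) ≤ wts i := by fin_cases i <;> simp [wts]
        exact smul_nonneg (Nat.zero_le _) this
      omega
    refine ⟨0, by simp, fun n => ?_⟩
    rw [hq n, hP0]
    simp

/-- Power series form of `exists_polynomial_mod_small`. -/
theorem exists_polynomial_mod_small' (h : l = 2 ∨ l = 3) (k : ℤ) (f : ℍ → ℂ) (hf : IsMF 𝒮ℒ k f)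
    (hint : ∀ n : ℕ, (qExpansion 1 f).coeff n ∈ Zl l) :
    ∃ Pol : Polynomial (ZMod l), Pol.natDegree * 12 ≤ k.toNat ∧
      (PowerSeries.mk fun n => red l ⟨(qExpansion 1 f).coeff n, hint n⟩) =
        Polynomial.aeval (DeltaBar l) Pol := by
  obtain ⟨Pol, hdeg, hPol⟩ := exists_polynomial_mod_small l h k f hf hint
  refine ⟨Pol, hdeg, ?_⟩
  ext n
  rw [PowerSeries.coeff_mk, hPol n]

end Fermat.Agent.S16.Rl
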