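import Mathlib
import Fermat.Agent.S16.LocalRing

/-!
# T16 / L1-TWO: level one forms mod `l ≥ 5` as isobaric polynomials in `E₄, E₆` only

Owner: helper30.  Builds on `S16/LevelOneIntegral.lean` (`L1`) and `S16/LocalRing.lean` (`Rl`).

Over a ring `K` in which `1728` is a unit, the generator `Δ` of `M_*(SL₂ℤ; K) = K[E₄, E₆, Δ]`
is redundant: `Δ = (E₄³ - E₆²) / 1728`.  We eliminate `X₂` from the polynomials produced by
`L1.exists_mvPolynomial` / `Rl.exists_mvPolynomial_mod`, obtaining isobaric polynomials in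
`MvPolynomial (Fin 2) K` for the weights `![4, 6]` (natural number degree) — the input shape of
`SD.sd_abstract`.

Main statements:
* `isWH_bind₁` : substitution of weighted homogeneous polynomials preserves weighted homogeneity.
* `exists_elim` : elimination of `X₂`.
* `exists_series_two` : general ring version (`φ : S →+* ℂ`, `ρ : S →+* K`).
* `exists_mvPolynomial_mod_two` : level one forms with `l`-integral expansions, `l ≥ 5`.
* `exists_const_two` : the constant case (`F ≡ c mod l`).
-/

set_option autoImplicit false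

open UpperHalfPlane ModularForm ModularFormClass
open scoped MatrixGroups ModularForm Manifold

namespace Fermat.Agent.S16.Rl

open Fermat.Agent.S23 Fermat.Agent.S16.L1

/-! ### Substitution preserves weighted homogeneity -/

section Subst

variable {σ τ K M : Type*} [CommSemiring K] [AddCommMonoid M]

/-- If each `g i` is weighted homogeneous of weighted degree `w i` (for the weights `w'`), then
substituting `X i ↦ g i` maps weighted homogeneous polynomials (weights `w`, degree `k`) to
weighted homogeneous polynomials (weights `w'`, degree `k`). -/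
theorem isWH_bind₁ (w : σ → M) (w' : τ → M) (g : σ → MvPolynomial τ K)
    (hg : ∀ i, MvPolynomial.IsWeightedHomogeneous w' (g i) (w i))
    {P : MvPolynomial σ K} {k : M} (hP : MvPolynomial.IsWeightedHomogeneous w P k) :
    MvPolynomial.IsWeightedHomogeneous w' (MvPolynomial.bind₁ g P) k := by
  induction hP using MvPolynomial.IsWeightedHomogeneous.induction_on with
  | zero =>
    rw [map_zero]
    exact MvPolynomial.isWeightedHomogeneous_zero K w' k
  | add p q hp hq ihp ihq =>
    rw [map_add]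
    exact ihp.add ihq
  | monomial d r hr =>
    rw [MvPolynomial.bind₁_monomial]
    refine MvPolynomial.IsWeightedHomogeneous.C_mul ?_ r
    rw [← hr, Finsupp.weight_apply, Finsupp.sum]
    exact MvPolynomial.IsWeightedHomogeneous.prod _ _ _ fun i _ => (hg i).pow (d i)

end Subst

/-! ### Elimination of `Δ` -/

section Elim

variable {K : Type*} [CommRing K]

/-- The weights `4, 6` of `E₄, E₆`. -/
def wtsTwo : Fin 2 → ℕ := ![4, 6]

/-- The reductions of `E₄, E₆` as a family indexed by `Fin 2`. -/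
noncomputable def gensTwo (K : Type*) [CommRing K] : Fin 2 → PowerSeries K :=
  ![E4Z.map (Int.castRingHom K), E6Z.map (Int.castRingHom K)]

theorem wtsTwo_eq : wtsTwo = (![4, 6] : Fin 2 → ℕ) := rfl

theorem gensTwo_eq (K : Type*) [CommRing K] :
    gensTwo K = ![E4Z.map (Int.castRingHom K), E6Z.map (Int.castRingHom K)] := rfl

theorem gensTwo_zero : gensTwo K 0 = gens K 0 := rfl

theorem gensTwo_one : gensTwo K 1 = gens K 1 := rfl

theorem constantCoeff_map_E4Z (K : Type*) [CommRing K] :
    PowerSeries.constantCoeff (E4Z.map (Int.castRingHom K)) = 1 := by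
  rw [← PowerSeries.coeff_zero_eq_constantCoeff_apply, PowerSeries.coeff_map, coeff_zero_E4Z]
  simp

theorem constantCoeff_map_E6Z (K : Type*) [CommRing K] :
    PowerSeries.constantCoeff (E6Z.map (Int.castRingHom K)) = 1 := by
  rw [← PowerSeries.coeff_zero_eq_constantCoeff_apply, PowerSeries.coeff_map, coeff_zero_E6Z]
  simp

/-- `E₄³ - E₆² ≠ 0` over a nontrivial ring in which `1728` is invertible (its `q`-coefficient
is `1728`). -/
theorem map_E4Z_cube_sub_ne_zero {K : Type*} [CommRing K] [Nontrivial K] (u : K)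
    (hu : u * 1728 = 1) :
    (E4Z.map (Int.castRingHom K)) ^ 3 - (E6Z.map (Int.castRingHom K)) ^ 2 ≠ 0 := by
  intro h
  have h1 := congrArg (PowerSeries.map (Int.castRingHom K)) DeltaZ_identity
  rw [map_mul, map_sub, map_pow, map_pow, PowerSeries.map_C, h] at h1
  have h2 := congrArg (PowerSeries.coeff 1) h1
  rw [PowerSeries.coeff_C_mul, PowerSeries.coeff_map, coeff_one_DeltaZ, map_zero] at h2
  have : (1 : K) = 0 := by
    have h3 : ((Int.castRingHom K) 1728 : K) = 1728 := by simp
    rw [h3] at h2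
    calc (1 : K) = u * 1728 := hu.symm
      _ = u * (1728 * (Int.castRingHom K) 1) := by simp
      _ = 0 := by rw [h2, mul_zero]
  exact one_ne_zero this

/-- The substitution `X₀ ↦ X₀, X₁ ↦ X₁, X₂ ↦ u (X₀³ - X₁²)`. -/
noncomputable def elimFun (u : K) : Fin 3 → MvPolynomial (Fin 2) K :=
  ![MvPolynomial.X 0, MvPolynomial.X 1,
    MvPolynomial.C u * (MvPolynomial.X 0 ^ 3 - MvPolynomial.X 1 ^ 2)]

theorem elimFun_isWH (u : K) (i : Fin 3) :
    MvPolynomial.IsWeightedHomogeneous wtsTwo (elimFun u i) (wtsNat i) := by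
  fin_cases i
  · exact MvPolynomial.isWeightedHomogeneous_X K wtsTwo 0
  · exact MvPolynomial.isWeightedHomogeneous_X K wtsTwo 1
  · refine MvPolynomial.IsWeightedHomogeneous.C_mul ?_ u
    refine MvPolynomial.IsWeightedHomogeneous.sub ?_ ?_
    · exact (MvPolynomial.isWeightedHomogeneous_X K wtsTwo 0).pow 3
    · exact (MvPolynomial.isWeightedHomogeneous_X K wtsTwo 1).pow 2

/-- The discriminant identity over any ring. -/
theorem gens_identity (K : Type*) [CommRing K] :
    PowerSeries.C (1728 : K) * gens K 2 = gens K 0 ^ 3 - gens K 1 ^ 2 := by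
  have h := congrArg (PowerSeries.map (Int.castRingHom K)) DeltaZ_identity
  rw [map_mul, map_sub, map_pow, map_pow, PowerSeries.map_C] at h
  simpa [gens] using h

/-- Elimination of `X₂`: the polynomial `elim u P`. -/
noncomputable def elim (u : K) (P : MvPolynomial (Fin 3) K) : MvPolynomial (Fin 2) K :=
  MvPolynomial.bind₁ (elimFun u) P

theorem elim_isWH (u : K) {P : MvPolynomial (Fin 3) K} {k : ℕ}
    (hP : MvPolynomial.IsWeightedHomogeneous wtsNat P k) :
    MvPolynomial.IsWeightedHomogeneous wtsTwo (elim u P) k :=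
  isWH_bind₁ wtsNat wtsTwo (elimFun u) (elimFun_isWH u) hP

theorem aeval_elimFun (u : K) (hu : u * 1728 = 1) (i : Fin 3) :
    MvPolynomial.aeval (gensTwo K) (elimFun u i) = gens K i := by
  fin_cases i
  · simp [elimFun, gensTwo, gens]
  · simp [elimFun, gensTwo, gens]
  · have h := gens_identity K
    have hu' : PowerSeries.C u * PowerSeries.C (1728 : K) = 1 := by
      rw [← map_mul, hu, map_one]
    have : MvPolynomial.aeval (gensTwo K) (elimFun u 2) =
        PowerSeries.C u * (gens K 0 ^ 3 - gens K 1 ^ 2) := by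
      simp [elimFun, gensTwo, gens, PowerSeries.algebraMap_eq]
    change MvPolynomial.aeval (gensTwo K) (elimFun u 2) = gens K 2
    rw [this, ← h, ← mul_assoc, hu', one_mul]

theorem aeval_elim (u : K) (hu : u * 1728 = 1) (P : MvPolynomial (Fin 3) K) :
    MvPolynomial.aeval (gensTwo K) (elim u P) = MvPolynomial.aeval (gens K) P := by
  rw [elim, MvPolynomial.aeval_bind₁]
  have : (fun i => MvPolynomial.aeval (gensTwo K) (elimFun u i)) = gens K :=
    funext fun i => aeval_elimFun u hu i
  rw [this]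

/-- **Elimination of `Δ`.**  If `1728` is invertible in `K`, every isobaric polynomial in
`E₄, E₆, Δ` is an isobaric polynomial of the same weight in `E₄, E₆`. -/
theorem exists_elim (u : K) (hu : u * 1728 = 1) (P : MvPolynomial (Fin 3) K) (k : ℕ)
    (hP : MvPolynomial.IsWeightedHomogeneous wtsNat P k) :
    ∃ f : MvPolynomial (Fin 2) K, MvPolynomial.IsWeightedHomogeneous wtsTwo f k ∧
      MvPolynomial.aeval (gensTwo K) f = MvPolynomial.aeval (gens K) P :=
  ⟨elim u P, elim_isWH u hP, aeval_elim u hu P⟩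

/-- Base change for the two-variable evaluation. -/
theorem map_gensTwo {K' : Type*} [CommRing K'] (ψ : K →+* K') (i : Fin 2) :
    PowerSeries.map ψ (gensTwo K i) = gensTwo K' i := by
  have key : ∀ P : PowerSeries ℤ, PowerSeries.map ψ (P.map (Int.castRingHom K)) =
      P.map (Int.castRingHom K') := by
    intro P
    ext n
    simp [PowerSeries.coeff_map]
  fin_cases i <;> exact key _

theorem map_aeval_gensTwo {K' : Type*} [CommRing K'] (ψ : K →+* K')
    (f : MvPolynomial (Fin 2) K) :
    PowerSeries.map ψ (MvPolynomial.aeval (gensTwo K) f) =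
      MvPolynomial.aeval (gensTwo K') (MvPolynomial.map ψ f) := by
  rw [MvPolynomial.aeval_def, MvPolynomial.aeval_def, MvPolynomial.eval₂_map,
    MvPolynomial.eval₂_comp_left (PowerSeries.map ψ)]
  congr 1
  · ext r
    simp
  · funext i
    exact map_gensTwo ψ i

theorem isWH_map_two {K' : Type*} [CommRing K'] (ψ : K →+* K') {f : MvPolynomial (Fin 2) K}
    {k : ℕ} (hf : MvPolynomial.IsWeightedHomogeneous wtsTwo f k) :
    MvPolynomial.IsWeightedHomogeneous wtsTwo (MvPolynomial.map ψ f) k := by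
  intro d hd
  apply hf
  intro h0
  apply hd
  rw [MvPolynomial.coeff_map, h0, map_zero]

end Elim

/-! ### Level one forms over a ring with `1728` invertible -/

section General

variable {S K : Type*} [CommRing S] [CommRing K]

/-- **General form.**  `φ : S →+* ℂ` any coefficient ring, `ρ : S →+* K` any "reduction" to a
ring in which `1728` is a unit.  A level one form of weight `k` whose first coefficients lie in the
range of `φ` has a `q`-expansion `F ∈ S⟦X⟧` whose reduction is an isobaric polynomial of weight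
`k` in `E₄, E₆` over `K`. -/
theorem exists_series_two (φ : S →+* ℂ) (ρ : S →+* K) (u : K) (hu : u * 1728 = 1) (k : ℕ)
    (f : ℍ → ℂ) (hf : IsMF 𝒮ℒ (k : ℤ) f)
    (hR : ∀ i : ℕ, 12 * (i : ℤ) ≤ k → (qExpansion 1 f).coeff i ∈ Set.range φ) :
    ∃ (F : PowerSeries S) (g : MvPolynomial (Fin 2) K),
      PowerSeries.map φ F = qExpansion 1 f ∧
      MvPolynomial.IsWeightedHomogeneous wtsTwo g k ∧
      PowerSeries.map ρ F = MvPolynomial.aeval (gensTwo K) g := by
  obtain ⟨P, hP, hq, -⟩ := exists_mvPolynomial φ (k : ℤ) f hf hR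
  have hP' : MvPolynomial.IsWeightedHomogeneous wtsNat (MvPolynomial.map ρ P) k :=
    isWH_nat (isWH_map ρ hP)
  refine ⟨MvPolynomial.aeval (gens S) P, elim u (MvPolynomial.map ρ P), ?_, elim_isWH u hP', ?_⟩
  · rw [hq, evalQ]
  · rw [aeval_elim u hu, map_aeval_gens]

end General

/-! ### The ring `ℤ_(l)`, `l ≥ 5` -/

variable (l : ℕ) [hl : Fact l.Prime]

theorem zmod_1728_ne_zero (h5 : 5 ≤ l) : (1728 : ZMod l) ≠ 0 := by
  intro h
  have h' : ((1728 : ℕ) : ZMod l) = 0 := by exact_mod_cast h
  rw [ZMod.natCast_eq_zero_iff] at h'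
  have e : (1728 : ℕ) = 2 ^ 6 * 3 ^ 3 := by norm_num
  rw [e] at h'
  rcases (Nat.Prime.dvd_mul hl.out).1 h' with h2 | h3
  · have := Nat.le_of_dvd (by norm_num) (hl.out.dvd_of_dvd_pow h2)
    omega
  · have := Nat.le_of_dvd (by norm_num) (hl.out.dvd_of_dvd_pow h3)
    omega

/-- **Level one forms mod `l ≥ 5`, two-variable form.**  A level one form of weight `k` whose
`q`-expansion has `l`-integral coefficients reduces mod `l` to an isobaric polynomial of weight
`k` in `E₄, E₆` over `ZMod l`. -/
theorem exists_mvPolynomial_mod_two (h5 : 5 ≤ l) (k : ℕ) (f : ℍ → ℂ) (hf : IsMF 𝒮ℒ (k : ℤ) f)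
    (hint : ∀ n : ℕ, (qExpansion 1 f).coeff n ∈ Zl l) :
    ∃ g : MvPolynomial (Fin 2) (ZMod l), MvPolynomial.IsWeightedHomogeneous wtsTwo g k ∧
      ∀ n : ℕ, red l ⟨(qExpansion 1 f).coeff n, hint n⟩ =
        PowerSeries.coeff n (MvPolynomial.aeval (gensTwo (ZMod l)) g) := by
  obtain ⟨P, hP, hq⟩ := exists_mvPolynomial_mod l (k : ℤ) f hf hint
  have hu : (1728 : ZMod l)⁻¹ * 1728 = 1 := inv_mul_cancel₀ (zmod_1728_ne_zero l h5)
  refine ⟨elim (1728 : ZMod l)⁻¹ P, elim_isWH _ (isWH_nat hP), fun n => ?_⟩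
  rw [hq n, aeval_elim _ hu]

/-- **The constant case** (input of Swinnerton-Dyer's `(l - 1) ∣ k`): a level one form of weight
`k` with `l`-integral `q`-expansion which is congruent to the constant `c` mod `l` is given mod `l`
by an isobaric polynomial `g` of weight `k` with `g(E₄, E₆) = c` in `(ZMod l)⟦X⟧`. -/
theorem exists_const_two (h5 : 5 ≤ l) (k : ℕ) (f : ℍ → ℂ) (hf : IsMF 𝒮ℒ (k : ℤ) f)
    (hint : ∀ n : ℕ, (qExpansion 1 f).coeff n ∈ Zl l) (c : ZMod l)
    (h0 : red l ⟨(qExpansion 1 f).coeff 0, hint 0⟩ = c)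
    (hn : ∀ n : ℕ, 1 ≤ n → red l ⟨(qExpansion 1 f).coeff n, hint n⟩ = 0) :
    ∃ g : MvPolynomial (Fin 2) (ZMod l), MvPolynomial.IsWeightedHomogeneous wtsTwo g k ∧
      MvPolynomial.aeval (gensTwo (ZMod l)) g = PowerSeries.C c := by
  obtain ⟨g, hg, hq⟩ := exists_mvPolynomial_mod_two l h5 k f hf hint
  refine ⟨g, hg, ?_⟩
  ext n
  rw [← hq n, PowerSeries.coeff_C]
  split_ifs with h
  · subst h
    exact h0
  · exact hn n (Nat.one_le_iff_ne_zero.mpr h)

/-- The constant case over a field (or ring) `K` of characteristic `l`. -/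
theorem exists_const_two_charP (h5 : 5 ≤ l) {K : Type*} [CommRing K] [CharP K l] (k : ℕ)
    (f : ℍ → ℂ) (hf : IsMF 𝒮ℒ (k : ℤ) f)
    (hint : ∀ n : ℕ, (qExpansion 1 f).coeff n ∈ Zl l) (c : ZMod l)
    (h0 : red l ⟨(qExpansion 1 f).coeff 0, hint 0⟩ = c)
    (hn : ∀ n : ℕ, 1 ≤ n → red l ⟨(qExpansion 1 f).coeff n, hint n⟩ = 0) :
    ∃ g : MvPolynomial (Fin 2) K, MvPolynomial.IsWeightedHomogeneous wtsTwo g k ∧
      MvPolynomial.aeval (gensTwo K) g = PowerSeries.C (ZMod.castHom (dvd_refl l) K c) := by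
  obtain ⟨g, hg, hq⟩ := exists_const_two l h5 k f hf hint c h0 hn
  refine ⟨MvPolynomial.map (ZMod.castHom (dvd_refl l) K) g, isWH_map_two _ hg, ?_⟩
  rw [← map_aeval_gensTwo, hq, PowerSeries.map_C]

end Fermat.Agent.S16.Rl
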