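import Fermat.Agent.S16.RAM.DE2
import Fermat.Agent.S16.RAM.Theta
import Fermat.Agent.S16.RAM.QExpD
import Fermat.Agent.S16.RAM.Series

/-!
# T16 package RAM (umbrella file): Ramanujan's differential equations as `q`-series identities

Imports the four parts `RAM/DE2`, `RAM/Theta`, `RAM/QExpD`, `RAM/Series`; all declarations live in
the namespace `Fermat.Agent.S16.RAM`.  Owner: helper29.
-/
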